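import Fermat.Agent.S36.H153.IncCtx

/-!
# S36 engine, cell INCIDENCE (helper153) — field homomorphisms map charts to charts

`map_mem_chart` : if `α : F' → F` is `R`-linear and maps the generators `S'` into `chart R S`,
then `α (chart R S') ⊆ chart R S`.  (Mathlib + `S18.H138.Charts` only.)
-/

set_option autoImplicit false
set_option linter.style.haveILetI false
set_option linter.unusedSectionVars false

namespace Fermat.Agent.S36.H153

open Fermat.Agent.S18.H138 (chart)

section

variable {R F F' : Type*} [CommRing R] [Field F] [Algebra R F] [Field F'] [Algebra R F']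

theorem map_mem_chart (α : F' →+* F) (hα : ∀ r : R, α (algebraMap R F' r) = algebraMap R F r)
    (S' : Set F') (S : Set F) (hS : ∀ s ∈ S', α s ∈ chart R S) :
    ∀ b ∈ chart R S', α b ∈ chart R S := by
  have hadj : ∀ a ∈ Algebra.adjoin R S', α a ∈ chart R S := by
    intro a ha
    induction ha using Algebra.adjoin_induction with
    | mem y hy => exact hS y hy
    | algebraMap r => rw [hα]; exact Subalgebra.algebraMap_mem _ r
    | add y z _ _ hy hz => rw [map_add]; exact Subalgebra.add_mem _ hy hz
    | mul y z _ _ hy hz => rw [map_mul]; exact Subalgebra.mul_mem _ hy hz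
  intro b hb
  rw [Fermat.Agent.S18.H138.mem_chart] at hb
  obtain ⟨p, hp, hpb⟩ := hb
  apply chart_closed
  refine ⟨p.map ((α.comp (Algebra.adjoin R S').val.toRingHom).codRestrict (chart R S)
    (fun a => hadj a a.2)), hp.map _, ?_⟩
  rw [Polynomial.eval₂_map]
  have h1 := Polynomial.hom_eval₂ p (algebraMap (Algebra.adjoin R S') F') α b
  rw [hpb, map_zero] at h1
  rw [h1]
  rfl

/-- Special case: one generator. -/
theorem map_mem_chart_singleton (α : F' →+* F)
    (hα : ∀ r : R, α (algebraMap R F' r) = algebraMap R F r) (y : F') (S : Set F)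
    (hy : α y ∈ chart R S) : ∀ b ∈ chart R ({y} : Set F'), α b ∈ chart R S :=
  map_mem_chart α hα _ S (fun s hs => by rw [Set.mem_singleton_iff.mp hs]; exact hy)

end

end Fermat.Agent.S36.H153
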