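import Fermat.Agent.S36.H153.CuspSq
import Fermat.Agent.S36.H153.ChartMap

/-!
# S36 engine, cell INCIDENCE (helper153) — the charts at infinity of levels `M q`, `M q q`
(A2 / MOD vocabulary): `α, β (chart R {x'⁻¹}) ⊆ chart R {x⁻¹}`, `x' = j j_q`, `x = j j_q j_{q²}`

* `alpha_algebraMap`, `beta_algebraMap` : `α`, `β` are `R_E`-linear;
* `modPoly_J1_Jq …`   : the four modular relations `Φ_q(j, j_q) = 0`, `Φ_q(j_q, j_{q²}) = 0`
                        (both orders) at level `M q q`;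
* `J_inv_mem_chart`   : `1/j, 1/j_q, 1/j_{q²} ∈ chart R {x⁻¹}` (valuative criterion);
* `J_mem_chart`       : `j, j_q, j_{q²} ∈ chart R {x}`;
* **`chart_αi`, `chart_βi`** : the hypotheses of `cusp_single_concrete`;
* `chart_αf`, `chart_βf` : the same for the finite charts (fields `chart_α`, `chart_β` of the
                        Spec, for the record).
-/

set_option autoImplicit false
set_option synthInstance.maxHeartbeats 400000
set_option maxHeartbeats 1600000
set_option linter.unusedSectionVars false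
set_option linter.style.haveILetI false

noncomputable section

namespace Fermat.Agent.S36.H153

open ModularCurve HahnSeries Polynomial
open Fermat.Agent.A2.Mod
open Fermat.Agent.S18.H138 (chart)

section Linear

variable (P : ValuationSubring Qb) (E : IntermediateField ℚ Qb) (M q : ℕ) [NeZero M] [NeZero q]

theorem alpha_algebraMap (r : RE P E) :
    αE E M q (algebraMap (RE P E) (FE E M) r) = algebraMap (RE P E) (FE E (M * q)) r := by
  have h1 : algebraMap (RE P E) (FE E M) r = algebraMap E (FE E M) (r : E) := rfl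
  have h2 : algebraMap (RE P E) (FE E (M * q)) r = algebraMap E (FE E (M * q)) (r : E) := rfl
  rw [h1, h2]
  exact (αE E M q).commutes _

theorem beta_algebraMap (r : RE P E) :
    βE E M q (algebraMap (RE P E) (FE E M) r) = algebraMap (RE P E) (FE E (M * q)) r := by
  have h1 : algebraMap (RE P E) (FE E M) r = algebraMap E (FE E M) (r : E) := rfl
  have h2 : algebraMap (RE P E) (FE E (M * q)) r = algebraMap E (FE E (M * q)) (r : E) := rfl
  rw [h1, h2]
  exact (βE E M q).commutes _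

end Linear

section Sq

variable (P : ValuationSubring Qb) (E : IntermediateField ℚ Qb) (M q : ℕ) [NeZero M] [NeZero q]
  [NeZero (M * q)]

/-- `j` at level `M q q`. -/
abbrev J1 : FE E (M * q * q) := jE E (M * q * q) 1 (one_dvd _)

/-- `j_q` at level `M q q`. -/
abbrev Jq : FE E (M * q * q) := jE E (M * q * q) q (dvd_mul_left q (M * q))

/-- `j_{q²}` at level `M q q`. -/
abbrev Jqq : FE E (M * q * q) :=
  jE E (M * q * q) (q * q) (mul_dvd_mul_right (dvd_mul_left q M) q)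

theorem xSq_eq : xSq E M q = J1 E M q * Jq E M q * Jqq E M q := rfl

theorem alpha_j1 : αE E (M * q) q (j1 E M q) = J1 E M q := H372.alpha_jE_one

theorem alpha_jq1 : αE E (M * q) q (jq1 E M q) = Jq E M q :=
  H372.alpha_jE q (dvd_mul_left q M)

theorem beta_j1 : βE E (M * q) q (j1 E M q) = Jq E M q := H372.beta_jE_one

theorem beta_jq1 : βE E (M * q) q (jq1 E M q) = Jqq E M q :=
  H372.beta_jE q (dvd_mul_left q M)

/-- transport of a modular relation along a ring homomorphism -/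
theorem eval₂_aeval_map {K L : Type*} [Field K] [Field L] (f : K →+* L)
    (Φ : Polynomial (Polynomial ℤ)) (a b : K)
    (h : Φ.eval₂ (Polynomial.aeval (R := ℤ) b).toRingHom a = 0) :
    Φ.eval₂ (Polynomial.aeval (R := ℤ) (f b)).toRingHom (f a) = 0 := by
  have h1 := Polynomial.hom_eval₂ Φ (Polynomial.aeval (R := ℤ) b).toRingHom f a
  rw [h, map_zero] at h1
  have hcomp : f.comp (Polynomial.aeval (R := ℤ) b).toRingHom =
      (Polynomial.aeval (R := ℤ) (f b)).toRingHom := by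
    apply Polynomial.ringHom_ext
    · intro n
      simp
    · simp
  rw [hcomp] at h1
  exact h1.symm

variable {q} in
/-- The four modular relations at level `M q q`. -/
theorem modPoly_rel (D : S28.ModPolyData q) :
    D.Φ.eval₂ (Polynomial.aeval (R := ℤ) (Jq E M q)).toRingHom (J1 E M q) = 0 ∧
    D.Φ.eval₂ (Polynomial.aeval (R := ℤ) (J1 E M q)).toRingHom (Jq E M q) = 0 ∧
    D.Φ.eval₂ (Polynomial.aeval (R := ℤ) (Jqq E M q)).toRingHom (Jq E M q) = 0 ∧
    D.Φ.eval₂ (Polynomial.aeval (R := ℤ) (Jq E M q)).toRingHom (Jqq E M q) = 0 := by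
  have hj : D.Φ.eval₂ (Polynomial.aeval (R := ℤ) (jq1 E M q)).toRingHom (j1 E M q) = 0 :=
    H873.eval₂_eq_zero_of_int E (M * q) D.Φ _ _ _ _ (H873.coe_jE_one E (M * q))
      (H873.coe_jE_int E (M * q) q (dvd_mul_left q M)) D.eval_j
  have hjq : D.Φ.eval₂ (Polynomial.aeval (R := ℤ) (j1 E M q)).toRingHom (jq1 E M q) = 0 :=
    H873.eval₂_eq_zero_of_int E (M * q) D.Φ _ _ _ _
      (H873.coe_jE_int E (M * q) q (dvd_mul_left q M)) (H873.coe_jE_one E (M * q)) D.eval_jp
  have a1 := eval₂_aeval_map (αE E (M * q) q : FE E (M * q) →+* FE E (M * q * q)) D.Φ _ _ hj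
  have a2 := eval₂_aeval_map (αE E (M * q) q : FE E (M * q) →+* FE E (M * q * q)) D.Φ _ _ hjq
  have b1 := eval₂_aeval_map (βE E (M * q) q : FE E (M * q) →+* FE E (M * q * q)) D.Φ _ _ hj
  have b2 := eval₂_aeval_map (βE E (M * q) q : FE E (M * q) →+* FE E (M * q * q)) D.Φ _ _ hjq
  have e1 : (αE E (M * q) q : FE E (M * q) →+* FE E (M * q * q)) (j1 E M q) = J1 E M q :=
    alpha_j1 E M q
  have e2 : (αE E (M * q) q : FE E (M * q) →+* FE E (M * q * q)) (jq1 E M q) = Jq E M q :=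
    alpha_jq1 E M q
  have e3 : (βE E (M * q) q : FE E (M * q) →+* FE E (M * q * q)) (j1 E M q) = Jq E M q :=
    beta_j1 E M q
  have e4 : (βE E (M * q) q : FE E (M * q) →+* FE E (M * q * q)) (jq1 E M q) = Jqq E M q :=
    beta_jq1 E M q
  rw [e1, e2] at a1 a2
  rw [e3, e4] at b1 b2
  exact ⟨a1, a2, b1, b2⟩

/-- Valuative form: a valuation subring containing `x⁻¹` contains `1/j`, `1/j_q`, `1/j_{q²}`. -/
theorem J_inv_mem_of_inv_x_mem (hq : q.Prime) (V : ValuationSubring (FE E (M * q * q)))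
    (hx : (xSq E M q)⁻¹ ∈ V) :
    (J1 E M q)⁻¹ ∈ V ∧ (Jq E M q)⁻¹ ∈ V ∧ (Jqq E M q)⁻¹ ∈ V := by
  obtain ⟨D⟩ := S28.H807.nonempty_modPolyData q hq
  obtain ⟨r1, r2, r3, r4⟩ := modPoly_rel E M D
  have h1 : J1 E M q ≠ 0 := H873.jE_ne_zero E (M * q * q) 1 _
  have h2 : Jq E M q ≠ 0 := H873.jE_ne_zero E (M * q * q) q _
  have h3 : Jqq E M q ≠ 0 := H873.jE_ne_zero E (M * q * q) (q * q) _
  have up : ∀ {a b : FE E (M * q * q)},
      D.Φ.eval₂ (Polynomial.aeval (R := ℤ) b).toRingHom a = 0 → b ∈ V → a ∈ V :=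
    fun {a b} h hb => H873.mem_valuationSubring_of_monic_eval D.Φ D.monic h V hb
  refine ⟨?_, ?_, ?_⟩
  · by_contra hcon
    have hJ1 : J1 E M q ∈ V := by
      have := (V.mem_or_inv_mem (J1 E M q)⁻¹).resolve_left hcon
      rwa [inv_inv] at this
    have hJq : Jq E M q ∈ V := up r2 hJ1
    have hJqq : Jqq E M q ∈ V := up r4 hJq
    apply hcon
    have e : (J1 E M q)⁻¹ = (xSq E M q)⁻¹ * (Jq E M q * Jqq E M q) := by
      rw [xSq_eq]; field_simp
    rw [e]
    exact V.mul_mem _ _ hx (V.mul_mem _ _ hJq hJqq)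
  · by_contra hcon
    have hJq : Jq E M q ∈ V := by
      have := (V.mem_or_inv_mem (Jq E M q)⁻¹).resolve_left hcon
      rwa [inv_inv] at this
    have hJ1 : J1 E M q ∈ V := up r1 hJq
    have hJqq : Jqq E M q ∈ V := up r4 hJq
    apply hcon
    have e : (Jq E M q)⁻¹ = (xSq E M q)⁻¹ * (J1 E M q * Jqq E M q) := by
      rw [xSq_eq]; field_simp
    rw [e]
    exact V.mul_mem _ _ hx (V.mul_mem _ _ hJ1 hJqq)
  · by_contra hcon
    have hJqq : Jqq E M q ∈ V := by
      have := (V.mem_or_inv_mem (Jqq E M q)⁻¹).resolve_left hcon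
      rwa [inv_inv] at this
    have hJq : Jq E M q ∈ V := up r3 hJqq
    have hJ1 : J1 E M q ∈ V := up r1 hJq
    apply hcon
    have e : (Jqq E M q)⁻¹ = (xSq E M q)⁻¹ * (J1 E M q * Jq E M q) := by
      rw [xSq_eq]; field_simp
    rw [e]
    exact V.mul_mem _ _ hx (V.mul_mem _ _ hJ1 hJq)

/-- Valuative form, finite chart: a valuation subring containing `x` contains `j`, `j_q`,
`j_{q²}`. -/
theorem J_mem_of_x_mem (hq : q.Prime) (V : ValuationSubring (FE E (M * q * q)))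
    (hx : xSq E M q ∈ V) : J1 E M q ∈ V ∧ Jq E M q ∈ V ∧ Jqq E M q ∈ V := by
  obtain ⟨D⟩ := S28.H807.nonempty_modPolyData q hq
  obtain ⟨r1, r2, r3, r4⟩ := modPoly_rel E M D
  have h1 : J1 E M q ≠ 0 := H873.jE_ne_zero E (M * q * q) 1 _
  have h2 : Jq E M q ≠ 0 := H873.jE_ne_zero E (M * q * q) q _
  have h3 : Jqq E M q ≠ 0 := H873.jE_ne_zero E (M * q * q) (q * q) _
  have up : ∀ {a b : FE E (M * q * q)},
      D.Φ.eval₂ (Polynomial.aeval (R := ℤ) b).toRingHom a = 0 → b ∈ V → a ∈ V :=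
    fun {a b} h hb => H873.mem_valuationSubring_of_monic_eval D.Φ D.monic h V hb
  -- if one of the three is not in `V`, its inverse is, and then all inverses are
  have key : ∀ {a b : FE E (M * q * q)}, a ≠ 0 → b ≠ 0 →
      D.Φ.eval₂ (Polynomial.aeval (R := ℤ) b).toRingHom a = 0 →
      D.Φ.eval₂ (Polynomial.aeval (R := ℤ) a).toRingHom b = 0 → a⁻¹ ∈ V → a ∉ V → b⁻¹ ∈ V ∧ b ∉ V := by
    intro a b ha hb hab hba hainv haV
    have hbV : b ∉ V := fun hbV => haV (up hab hbV)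
    exact ⟨(V.mem_or_inv_mem b).resolve_left hbV, hbV⟩
  by_contra hcon
  have hsome : J1 E M q ∉ V ∨ Jq E M q ∉ V ∨ Jqq E M q ∉ V := by
    by_contra hall
    push Not at hall
    exact hcon ⟨hall.1, hall.2.1, hall.2.2⟩
  have hall : ((J1 E M q)⁻¹ ∈ V ∧ J1 E M q ∉ V) ∧ ((Jq E M q)⁻¹ ∈ V ∧ Jq E M q ∉ V) ∧
      ((Jqq E M q)⁻¹ ∈ V ∧ Jqq E M q ∉ V) := by
    rcases hsome with h | h | h
    · have a1 : (J1 E M q)⁻¹ ∈ V ∧ J1 E M q ∉ V := ⟨(V.mem_or_inv_mem _).resolve_left h, h⟩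
      have a2 := key h1 h2 r1 r2 a1.1 a1.2
      have a3 := key h2 h3 r3 r4 a2.1 a2.2
      exact ⟨a1, a2, a3⟩
    · have a2 : (Jq E M q)⁻¹ ∈ V ∧ Jq E M q ∉ V := ⟨(V.mem_or_inv_mem _).resolve_left h, h⟩
      have a1 := key h2 h1 r2 r1 a2.1 a2.2
      have a3 := key h2 h3 r3 r4 a2.1 a2.2
      exact ⟨a1, a2, a3⟩
    · have a3 : (Jqq E M q)⁻¹ ∈ V ∧ Jqq E M q ∉ V := ⟨(V.mem_or_inv_mem _).resolve_left h, h⟩
      have a2 := key h3 h2 r4 r3 a3.1 a3.2
      have a1 := key h2 h1 r2 r1 a2.1 a2.2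
      exact ⟨a1, a2, a3⟩
  obtain ⟨⟨i1, n1⟩, ⟨i2, -⟩, ⟨i3, -⟩⟩ := hall
  apply n1
  have e : J1 E M q = xSq E M q * ((Jq E M q)⁻¹ * (Jqq E M q)⁻¹) := by
    rw [xSq_eq]; field_simp
  rw [e]
  exact V.mul_mem _ _ hx (V.mul_mem _ _ i2 i3)

theorem mem_chart_of_forall (y a : FE E (M * q * q))
    (h : ∀ V : ValuationSubring (FE E (M * q * q)), y ∈ V → a ∈ V) :
    a ∈ chart (RE P E) ({y} : Set (FE E (M * q * q))) := by
  have h1 : a ∈ Fermat.Agent.A2.Mod.chart P E (M * q * q) y :=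
    H873.isIntegralElem_of_isIntegral_closure _
      (H873.isIntegral_closure_of_forall_valuationSubring h)
  rw [H372.mem_chart_iff] at h1
  exact h1

theorem J_inv_mem_chart (hq : q.Prime) :
    (J1 E M q)⁻¹ ∈ chart (RE P E) ({(xSq E M q)⁻¹} : Set (FE E (M * q * q))) ∧
    (Jq E M q)⁻¹ ∈ chart (RE P E) ({(xSq E M q)⁻¹} : Set (FE E (M * q * q))) ∧
    (Jqq E M q)⁻¹ ∈ chart (RE P E) ({(xSq E M q)⁻¹} : Set (FE E (M * q * q))) :=
  ⟨mem_chart_of_forall P E M q _ _ fun V hV => (J_inv_mem_of_inv_x_mem E M q hq V hV).1,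
    mem_chart_of_forall P E M q _ _ fun V hV => (J_inv_mem_of_inv_x_mem E M q hq V hV).2.1,
    mem_chart_of_forall P E M q _ _ fun V hV => (J_inv_mem_of_inv_x_mem E M q hq V hV).2.2⟩

theorem J_mem_chart (hq : q.Prime) :
    J1 E M q ∈ chart (RE P E) ({xSq E M q} : Set (FE E (M * q * q))) ∧
    Jq E M q ∈ chart (RE P E) ({xSq E M q} : Set (FE E (M * q * q))) ∧
    Jqq E M q ∈ chart (RE P E) ({xSq E M q} : Set (FE E (M * q * q))) :=
  ⟨mem_chart_of_forall P E M q _ _ fun V hV => (J_mem_of_x_mem E M q hq V hV).1,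
    mem_chart_of_forall P E M q _ _ fun V hV => (J_mem_of_x_mem E M q hq V hV).2.1,
    mem_chart_of_forall P E M q _ _ fun V hV => (J_mem_of_x_mem E M q hq V hV).2.2⟩

/-- **`α` maps the chart at infinity of level `M q` into the chart at infinity of level
`M q q`.** -/
theorem chart_αi (hq : q.Prime) :
    ∀ b ∈ chart (RE P E) ({(xE E M q)⁻¹} : Set (FE E (M * q))),
      αE E (M * q) q b ∈ chart (RE P E) ({(xSq E M q)⁻¹} : Set (FE E (M * q * q))) := by
  obtain ⟨h1, h2, -⟩ := J_inv_mem_chart P E M q hq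
  refine map_mem_chart_singleton (αE E (M * q) q : FE E (M * q) →+* FE E (M * q * q))
    (alpha_algebraMap P E (M * q) q) _ _ ?_
  show αE E (M * q) q (xE E M q)⁻¹ ∈ _
  rw [← uE_mul_uqE, map_mul, alpha_uE, alpha_uqE]
  exact Subalgebra.mul_mem _ h1 h2

/-- **`β` maps the chart at infinity of level `M q` into the chart at infinity of level
`M q q`.** -/
theorem chart_βi (hq : q.Prime) :
    ∀ b ∈ chart (RE P E) ({(xE E M q)⁻¹} : Set (FE E (M * q))),
      βE E (M * q) q b ∈ chart (RE P E) ({(xSq E M q)⁻¹} : Set (FE E (M * q * q))) := by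
  obtain ⟨-, h2, h3⟩ := J_inv_mem_chart P E M q hq
  refine map_mem_chart_singleton (βE E (M * q) q : FE E (M * q) →+* FE E (M * q * q))
    (beta_algebraMap P E (M * q) q) _ _ ?_
  show βE E (M * q) q (xE E M q)⁻¹ ∈ _
  rw [← uE_mul_uqE, map_mul, beta_uE, beta_uqE]
  exact Subalgebra.mul_mem _ h2 h3

/-- `α` maps the finite chart of level `M q` into the finite chart of level `M q q`. -/
theorem chart_αf (hq : q.Prime) :
    ∀ b ∈ chart (RE P E) ({xE E M q} : Set (FE E (M * q))),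
      αE E (M * q) q b ∈ chart (RE P E) ({xSq E M q} : Set (FE E (M * q * q))) := by
  obtain ⟨h1, h2, -⟩ := J_mem_chart P E M q hq
  refine map_mem_chart_singleton (αE E (M * q) q : FE E (M * q) →+* FE E (M * q * q))
    (alpha_algebraMap P E (M * q) q) _ _ ?_
  show αE E (M * q) q (xE E M q) ∈ _
  rw [xE_eq, map_mul, alpha_j1, alpha_jq1]
  exact Subalgebra.mul_mem _ h1 h2

/-- `β` maps the finite chart of level `M q` into the finite chart of level `M q q`. -/
theorem chart_βf (hq : q.Prime) :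
    ∀ b ∈ chart (RE P E) ({xE E M q} : Set (FE E (M * q))),
      βE E (M * q) q b ∈ chart (RE P E) ({xSq E M q} : Set (FE E (M * q * q))) := by
  obtain ⟨-, h2, h3⟩ := J_mem_chart P E M q hq
  refine map_mem_chart_singleton (βE E (M * q) q : FE E (M * q) →+* FE E (M * q * q))
    (beta_algebraMap P E (M * q) q) _ _ ?_
  show βE E (M * q) q (xE E M q) ∈ _
  rw [xE_eq, map_mul, beta_j1, beta_jq1]
  exact Subalgebra.mul_mem _ h2 h3

end Sq

end Fermat.Agent.S36.H153
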