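import Fermat.Agent.S36.H153.IncCtx
import Fermat.Agent.S36.H153.Infinity

/-!
# S36 engine, cell INCIDENCE (helper153) — the field `cusp_single` of `Eng.TripleCtx`
(chart / valuation-subring vocabulary) and the builder of `ChartInc` for charts

* `chartInc_of_chart` : `ChartInc` for `B' = chart R {x'}`, `B = chart R {x}` from hypotheses in
  the shape of the fields of `Eng.TripleCtx` (+ incomparability at level `q` + radicial);
* `cusp_single_of`    : the points at infinity of level `q²` lie on ONE component, from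
  "cusps are not nodes" at level `q` (`hnode`, = `CuspNode.no_node_at_infinity` in A2 vocabulary),
  the two Kronecker congruences at infinity and the comap table.

Mathlib + `S18.H138.Charts` only.
-/

set_option autoImplicit false
set_option linter.style.haveILetI false
set_option linter.unusedSectionVars false

namespace Fermat.Agent.S36.H153

open Fermat.Agent.S18.H138 (chart)

section Builder

variable {R F F' : Type*} [CommRing R] [Field F] [Algebra R F] [Field F'] [Algebra R F']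

/-- **Builder**: the chart-level incidence datum of the finite charts `chart R {x'}`,
`chart R {x}` from hypotheses in the shape of the fields of `Eng.TripleCtx`. -/
theorem chartInc_of_chart (w : R) (e : ℕ) (α β : F' →+* F) (x : F) (x' : F')
    (V₁ V₂ V₃ : ValuationSubring F) (V₁' V₂' : ValuationSubring F')
    (hR₁ : ∀ r : R, algebraMap R F r ∈ V₁) (hR₂ : ∀ r : R, algebraMap R F r ∈ V₂)
    (hR₃ : ∀ r : R, algebraMap R F r ∈ V₃)
    (hx₁ : x ∈ V₁) (hx₂ : x ∈ V₂) (hx₃ : x ∈ V₃)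
    (chart_α : ∀ b ∈ chart R ({x'} : Set F'), α b ∈ chart R ({x} : Set F))
    (chart_β : ∀ b ∈ chart R ({x'} : Set F'), β b ∈ chart R ({x} : Set F))
    (int_α : ∀ b ∈ chart R ({x} : Set F), ∃ p : Polynomial F', p.Monic ∧
      (∀ i, p.coeff i ∈ chart R ({x'} : Set F')) ∧ (p.map α).eval b = 0)
    (int_β : ∀ b ∈ chart R ({x} : Set F), ∃ p : Polynomial F', p.Monic ∧
      (∀ i, p.coeff i ∈ chart R ({x'} : Set F')) ∧ (p.map β).eval b = 0)
    (comap_α₁ : V₁.comap α = V₁') (comap_α₂ : V₂.comap α = V₁') (comap_α₃ : V₃.comap α = V₂')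
    (comap_β₁ : V₁.comap β = V₁') (comap_β₂ : V₂.comap β = V₂') (comap_β₃ : V₃.comap β = V₂')
    (α_w : α (algebraMap R F' w) = algebraMap R F w)
    (β_w : β (algebraMap R F' w) = algebraMap R F w)
    (w_mem₁ : algebraMap R F w ∈ V₁.nonunits) (w_mem₃ : algebraMap R F w ∈ V₃.nonunits)
    (qep : ∀ b : chart R ({x} : Set F), (b : F) * (algebraMap R F w)⁻¹ ∈ V₁ →
      (b : F) * (algebraMap R F w)⁻¹ ∈ V₂ → (b : F) * (algebraMap R F w)⁻¹ ∈ V₃ →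
      ∃ c : chart R ({x} : Set F), b = algebraMap R (chart R ({x} : Set F)) w * c)
    (u₁ : ∀ f ∈ V₁.nonunits, f * (algebraMap R F w)⁻¹ ∈ V₁)
    (u₂ : ∀ f ∈ V₂.nonunits, f ^ e * (algebraMap R F w)⁻¹ ∈ V₂)
    (u₃ : ∀ f ∈ V₃.nonunits, f * (algebraMap R F w)⁻¹ ∈ V₃)
    (inc₁₂ : ∃ b' ∈ chart R ({x'} : Set F'), b' ∈ V₁'.nonunits ∧ b' ∉ V₂'.nonunits)
    (inc₂₁ : ∃ b' ∈ chart R ({x'} : Set F'), b' ∈ V₂'.nonunits ∧ b' ∉ V₁'.nonunits)
    (rad_α : ∀ b ∈ chart R ({x} : Set F), ∃ k : ℕ, 0 < k ∧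
      ∃ b' ∈ chart R ({x'} : Set F'), b ^ k - α b' ∈ V₃.nonunits)
    (rad_β : ∀ b ∈ chart R ({x} : Set F), ∃ k : ℕ, 0 < k ∧
      ∃ b' ∈ chart R ({x'} : Set F'), b ^ k - β b' ∈ V₁.nonunits) :
    ChartInc w e α β (chart R ({x'} : Set F')) (chart R ({x} : Set F)) V₁ V₂ V₃ V₁' V₂' := by
  have hB₁ : ∀ b ∈ chart R ({x} : Set F), b ∈ V₁ :=
    chart_le_valuationSubring V₁ hR₁ (fun s hs => by rw [Set.mem_singleton_iff.mp hs]; exact hx₁)
  have hB₂ : ∀ b ∈ chart R ({x} : Set F), b ∈ V₂ :=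
    chart_le_valuationSubring V₂ hR₂ (fun s hs => by rw [Set.mem_singleton_iff.mp hs]; exact hx₂)
  have hB₃ : ∀ b ∈ chart R ({x} : Set F), b ∈ V₃ :=
    chart_le_valuationSubring V₃ hR₃ (fun s hs => by rw [Set.mem_singleton_iff.mp hs]; exact hx₃)
  exact
    { B_le₁ := hB₁
      B_le₂ := hB₂
      B_le₃ := hB₃
      chart_α := chart_α
      chart_β := chart_β
      int_α := int_α
      int_β := int_β
      closed' := chart_closed _
      comap_α₁ := comap_α₁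
      comap_α₂ := comap_α₂
      comap_α₃ := comap_α₃
      comap_β₁ := comap_β₁
      comap_β₂ := comap_β₂
      comap_β₃ := comap_β₃
      α_w := α_w
      β_w := β_w
      w_mem₁ := w_mem₁
      w_mem₃ := w_mem₃
      cover := cover_of_qep w e _ V₁ V₂ V₃ hB₁ hB₂ hB₃ qep u₁ u₂ u₃
      inc₁₂ := inc₁₂
      inc₂₁ := inc₂₁
      rad_α := rad_α
      rad_β := rad_β }

end Builder

section Cusp

variable {R F F' : Type*} [CommRing R] [Field F] [Algebra R F] [Field F'] [Algebra R F']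

/-- **Field `cusp_single` of `Eng.TripleCtx`** (abstract form).  `Bi' ⊆ F'`, `Bi ⊆ F` the charts
at infinity of level `q`, `q²`; `u = 1/j`, `u_q = 1/j_q` at level `q`; `z = 1/(j j_q j_{q²})`.
A prime of `Bi` containing `z` lies on at most one of the three components. -/
theorem cusp_single_of (α β : F' →+* F) (Bi' : Subalgebra R F') (Bi : Subalgebra R F)
    (V₁ V₂ V₃ : ValuationSubring F) (V₁' V₂' : ValuationSubring F')
    (hB₁ : ∀ b ∈ Bi, b ∈ V₁) (hB₂ : ∀ b ∈ Bi, b ∈ V₂) (hB₃ : ∀ b ∈ Bi, b ∈ V₃)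
    (chart_α : ∀ b ∈ Bi', α b ∈ Bi) (chart_β : ∀ b ∈ Bi', β b ∈ Bi)
    (comap_α₁ : V₁.comap α = V₁') (comap_α₂ : V₂.comap α = V₁') (comap_α₃ : V₃.comap α = V₂')
    (comap_β₁ : V₁.comap β = V₁') (comap_β₂ : V₂.comap β = V₂') (comap_β₃ : V₃.comap β = V₂')
    (u uq : F') (hu : u ∈ Bi') (huq : uq ∈ Bi') (hab : α uq = β u) (e : ℕ) (he : 0 < e)
    (h1 : uq - u ^ e ∈ V₁'.nonunits) (h2 : u - uq ^ e ∈ V₂'.nonunits)
    (hnode : ∀ N : Ideal Bi', N.IsPrime → (∀ b : Bi', (b : F') ∈ V₁'.nonunits → b ∈ N) →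
      (∀ b : Bi', (b : F') ∈ V₂'.nonunits → b ∈ N) →
      (⟨u * uq, Bi'.mul_mem hu huq⟩ : Bi') ∉ N)
    (𝔪 : Ideal Bi) (h𝔪 : 𝔪.IsPrime) (z : Bi) (hz : (z : F) = α u * α uq * β uq)
    (hzm : z ∈ 𝔪) :
    ¬ ((∀ b : Bi, (b : F) ∈ V₁.nonunits → b ∈ 𝔪) ∧ (∀ b : Bi, (b : F) ∈ V₂.nonunits → b ∈ 𝔪)) ∧
    ¬ ((∀ b : Bi, (b : F) ∈ V₁.nonunits → b ∈ 𝔪) ∧ (∀ b : Bi, (b : F) ∈ V₃.nonunits → b ∈ 𝔪)) ∧
    ¬ ((∀ b : Bi, (b : F) ∈ V₂.nonunits → b ∈ 𝔪) ∧ (∀ b : Bi, (b : F) ∈ V₃.nonunits → b ∈ 𝔪)) := by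
  haveI := h𝔪
  have hB₁' : ∀ b ∈ Bi', b ∈ V₁' := fun b hb => by
    rw [← comap_α₁, ValuationSubring.mem_comap]; exact hB₁ _ (chart_α b hb)
  have hB₂' : ∀ b ∈ Bi', b ∈ V₂' := fun b hb => by
    rw [← comap_α₃, ValuationSubring.mem_comap]; exact hB₃ _ (chart_α b hb)
  have key : ∀ h : ((vprime Bi V₁ hB₁ ≤ 𝔪 ∧ vprime Bi V₂ hB₂ ≤ 𝔪) ∨
      (vprime Bi V₁ hB₁ ≤ 𝔪 ∧ vprime Bi V₃ hB₃ ≤ 𝔪) ∨
      (vprime Bi V₂ hB₂ ≤ 𝔪 ∧ vprime Bi V₃ hB₃ ≤ 𝔪)), False := by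
    intro h
    have hfin := finite_of_two_components (resHom α Bi' Bi chart_α) (resHom β Bi' Bi chart_β)
      (P1 := vprime Bi' V₁' hB₁') (P2 := vprime Bi' V₂' hB₂')
      (pFF := vprime Bi V₁ hB₁) (pmid := vprime Bi V₂ hB₂) (pVV := vprime Bi V₃ hB₃)
      (comap_vprime α Bi' Bi chart_α V₁ V₁' hB₁ hB₁' comap_α₁).ge
      (comap_vprime α Bi' Bi chart_α V₃ V₂' hB₃ hB₂' comap_α₃).ge
      (comap_vprime α Bi' Bi chart_α V₂ V₁' hB₂ hB₁' comap_α₂).ge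
      (comap_vprime β Bi' Bi chart_β V₁ V₁' hB₁ hB₁' comap_β₁).ge
      (comap_vprime β Bi' Bi chart_β V₂ V₂' hB₂ hB₂' comap_β₂).ge
      (comap_vprime β Bi' Bi chart_β V₃ V₂' hB₃ hB₂' comap_β₃).ge
      (u := ⟨u, hu⟩) (uq := ⟨uq, huq⟩) (e := e) he (Subtype.ext hab)
      (show ((⟨uq, huq⟩ - ⟨u, hu⟩ ^ e : Bi') : F') ∈ V₁'.nonunits from h1)
      (show ((⟨u, hu⟩ - ⟨uq, huq⟩ ^ e : Bi') : F') ∈ V₂'.nonunits from h2)
      (fun N hN hP1 hP2 => hnode N hN hP1 hP2) 𝔪 h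
    apply hfin
    have hzeq : z = resHom α Bi' Bi chart_α ⟨u, hu⟩ * resHom α Bi' Bi chart_α ⟨uq, huq⟩ *
        resHom β Bi' Bi chart_β ⟨uq, huq⟩ := Subtype.ext hz
    rw [← hzeq]
    exact hzm
  refine ⟨fun h => key (Or.inl h), fun h => key (Or.inr (Or.inl h)),
    fun h => key (Or.inr (Or.inr h))⟩

end Cusp

end Fermat.Agent.S36.H153
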