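import Fermat.Agent.S36.H153.CuspNode
import Fermat.Agent.S36.H153.IncCusp

/-!
# S36 engine, cell INCIDENCE (helper153) — the field `cusp_single` of `Eng.TripleCtx`,
concrete part (A2 / MOD vocabulary)

Levels `M q` (`q ∤ M`) and `M q q`; `V₁' = V∞` (`IsVinf`), `V₂' = V∞ ∘ W` (`W` Fricke of level
`M q`); `x' = xE E M q = j j_q`; `u = 1/j`, `u_q = 1/j_q` at level `M q`.

* `mem_nonunits_of_inW`, `mem_nonunits_comap_of_inW` : `w V ⊆ 𝔪_V` for `V = V∞`, `V∞ ∘ W`;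
* `uE_mem_chart`, `uqE_mem_chart`  : `u, u_q ∈ chart R {x'⁻¹}`;
* `kron_inf₁`, `kron_inf₂`         : `u_q - u^q ∈ 𝔪_{V₁'}`, `u - u_q^q ∈ 𝔪_{V₂'}`;
* `hnode_level_q`                  : cusps are not nodes at level `M q`, chart vocabulary;
* `alpha_uq_eq_beta_u`, `inv_x_eq` : `α u_q = β u`, `(j j_q j_{q²})⁻¹ = α u · α u_q · β u_q`;
* **`cusp_single_concrete`**       : the field `cusp_single` for `x = j j_q j_{q²}` from the
  comap table, `R ⊆ Vᵢ`, `x⁻¹ ∈ Vᵢ` and `α, β (chart R {x'⁻¹}) ⊆ chart R {x⁻¹}`.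
-/

set_option autoImplicit false
set_option synthInstance.maxHeartbeats 400000
set_option maxHeartbeats 1600000
set_option linter.unusedSectionVars false
set_option linter.style.haveILetI false

noncomputable section

namespace Fermat.Agent.S36.H153

open ModularCurve HahnSeries Polynomial
open Fermat.Agent.A2.Mod
open Fermat.Agent.S18.H138 (chart)

theorem inv_sub_inv_pow_eq {K : Type*} [Field K] (a b : K) (n : ℕ) (ha : a ≠ 0) (hb : b ≠ 0) :
    b⁻¹ - a⁻¹ ^ n = (-b⁻¹) * (b / a ^ n - 1) := by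
  have han : a ^ n ≠ 0 := pow_ne_zero n ha
  rw [inv_pow]
  field_simp
  ring

section LevelQ

variable {P : ValuationSubring Qb} {E : IntermediateField ℚ Qb} {M q : ℕ} [NeZero M] [NeZero q]
variable (w : RE P E)

/-- `cE w ∈ 𝔪_V` for `V = V∞` (any level). -/
theorem cE_mem_nonunits (hS : Setting P E M q w) {N : ℕ} (hN : N ≠ 0)
    {V : ValuationSubring (FE E N)} (hV : IsVinf P E N V) : cE P E N w ∈ V.nonunits := by
  have hu := (H553.vinfBasic P E w N hN hS.dvr hS.unif V hV).1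
  rw [ValuationSubring.mem_nonunits_iff]
  by_contra hcon
  rw [not_lt] at hcon
  apply hu.inv_not_mem
  rw [← V.valuation_le_one_iff, map_inv₀]
  exact inv_le_one_of_one_le₀ hcon

/-- `w V ⊆ 𝔪_V` for `V = V∞`. -/
theorem mem_nonunits_of_inW (hS : Setting P E M q w) {N : ℕ} (hN : N ≠ 0)
    {V : ValuationSubring (FE E N)} (hV : IsVinf P E N V) {f : FE E N}
    (h : InW P E N V w f) : f ∈ V.nonunits := by
  have hc := cE_mem_nonunits w hS hN hV
  have hc0 : cE P E N w ≠ 0 := by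
    intro h0
    have hu := (H553.vinfBasic P E w N hN hS.dvr hS.unif V hV).1
    exact hu.ne_zero h0
  have e : f = (f * (cE P E N w)⁻¹) * cE P E N w := by
    field_simp
  rw [e]
  exact nonunits_mul_mem V h hc

/-- `w V ⊆ 𝔪_V` for `V = V∞ ∘ W`. -/
theorem mem_nonunits_comap_of_inW (hS : Setting P E M q w) {N : ℕ} (hN : N ≠ 0)
    {V : ValuationSubring (FE E N)} (hV : IsVinf P E N V) (W : FE E N ≃ₐ[E] FE E N)
    {f : FE E N} (h : InW P E N (V.comap (W : FE E N →+* FE E N)) w f) :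
    f ∈ (V.comap (W : FE E N →+* FE E N)).nonunits := by
  rw [mem_nonunits_comap]
  rw [H372.inW_comap_iff] at h
  exact mem_nonunits_of_inW w hS hN hV h

variable (P E M q)

/-- `u = 1/j` at level `M q`. -/
abbrev uE : FE E (M * q) := (j1 E M q)⁻¹

/-- `u_q = 1/j_q` at level `M q`. -/
abbrev uqE : FE E (M * q) := (jq1 E M q)⁻¹

theorem uE_mul_uqE : uE E M q * uqE E M q = (xE E M q)⁻¹ := by
  rw [xE_eq, mul_inv]

theorem uE_mem_chart (hq : q.Prime) :
    uE E M q ∈ chart (RE P E) ({(xE E M q)⁻¹} : Set (FE E (M * q))) := by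
  have h := (H873.chartCompat P E M q hq).2.2.1
  rw [H372.mem_chart_iff] at h
  exact h

theorem uqE_mem_chart (hq : q.Prime) :
    uqE E M q ∈ chart (RE P E) ({(xE E M q)⁻¹} : Set (FE E (M * q))) := by
  have h := (H873.chartCompat P E M q hq).2.2.2
  rw [H372.mem_chart_iff] at h
  exact h

variable {P E M q}

/-- Kronecker at infinity on `V∞`: `1/j_q ≡ (1/j)^q`. -/
theorem kron_inf₁ (hS : Setting P E M q w) {V : ValuationSubring (FE E (M * q))}
    (hV : IsVinf P E (M * q) V) : uqE E M q - uE E M q ^ q ∈ V.nonunits := by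
  have hN := H372.level_ne_zero w hS
  have hz := mem_nonunits_of_inW w hS hN hV (zE_sub_one_inW w hS hV)
  have huq : uqE E M q ∈ V := H372.jE_inv_mem w hS hN hV q (dvd_mul_left q M)
  have h1 : j1 E M q ≠ 0 := H873.jE_ne_zero E (M * q) 1 (one_dvd _)
  have h2 : jq1 E M q ≠ 0 := H873.jE_ne_zero E (M * q) q (dvd_mul_left q M)
  have e : uqE E M q - uE E M q ^ q = (-uqE E M q) * (zE E M q - 1) :=
    inv_sub_inv_pow_eq _ _ q h1 h2
  rw [e]
  exact nonunits_mul_mem V (V.neg_mem _ huq) hz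

/-- Kronecker at infinity on `V₀ = V∞ ∘ W`: `1/j ≡ (1/j_q)^q`. -/
theorem kron_inf₂ (hS : Setting P E M q w) {V : ValuationSubring (FE E (M * q))}
    (hV : IsVinf P E (M * q) V) {W : FE E (M * q) ≃ₐ[E] FE E (M * q)}
    (hW : IsFricke E (M * q) W) :
    uE E M q - uqE E M q ^ q ∈ (V.comap (W : FE E (M * q) →+* FE E (M * q))).nonunits := by
  have hN := H372.level_ne_zero w hS
  have hy := mem_nonunits_comap_of_inW w hS hN hV W (yE_sub_one_inW w hS hV hW)
  have hu : uE E M q ∈ V.comap (W : FE E (M * q) →+* FE E (M * q)) := by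
    rw [ValuationSubring.mem_comap]
    show W (uE E M q) ∈ V
    rw [map_inv₀, H372.fricke_jE_one hW]
    exact H372.jE_inv_mem w hS hN hV (M * q) (dvd_refl _)
  have h1 : j1 E M q ≠ 0 := H873.jE_ne_zero E (M * q) 1 (one_dvd _)
  have h2 : jq1 E M q ≠ 0 := H873.jE_ne_zero E (M * q) q (dvd_mul_left q M)
  have e : uE E M q - uqE E M q ^ q = (-uE E M q) * (yE E M q - 1) :=
    inv_sub_inv_pow_eq _ _ q h2 h1
  rw [e]
  exact nonunits_mul_mem _ (ValuationSubring.neg_mem _ _ hu) hy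

/-- **Cusps are not nodes at level `M q`**, chart vocabulary (`hnode` of `cusp_single_of`). -/
theorem hnode_level_q (hS : Setting P E M q w) (V : ValuationSubring (FE E (M * q)))
    (W : FE E (M * q) ≃ₐ[E] FE E (M * q)) (hV : IsVinf P E (M * q) V)
    (hW : IsFricke E (M * q) W)
    (N : Ideal (chart (RE P E) ({(xE E M q)⁻¹} : Set (FE E (M * q))))) (hN : N.IsPrime)
    (h1 : ∀ b : chart (RE P E) ({(xE E M q)⁻¹} : Set (FE E (M * q))),
      (b : FE E (M * q)) ∈ V.nonunits → b ∈ N)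
    (h2 : ∀ b : chart (RE P E) ({(xE E M q)⁻¹} : Set (FE E (M * q))),
      (b : FE E (M * q)) ∈ (V.comap (W : FE E (M * q) →+* FE E (M * q))).nonunits → b ∈ N)
    (v : chart (RE P E) ({(xE E M q)⁻¹} : Set (FE E (M * q))))
    (hv : (v : FE E (M * q)) = (xE E M q)⁻¹) : v ∉ N := by
  have hNlev := H372.level_ne_zero w hS
  obtain ⟨hz, hy⟩ := zy_mem_chartAlg P E M q hS.q_prime
  have hz' : zE E M q ∈ chart (RE P E) ({(xE E M q)⁻¹} : Set (FE E (M * q))) := hz
  have hy' : yE E M q ∈ chart (RE P E) ({(xE E M q)⁻¹} : Set (FE E (M * q))) := hy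
  have hq1 : 0 < q - 1 := by have := hS.q_prime.two_le; omega
  refine not_mem_of_yz (pinf := N) (pzero := N) (y := ⟨yE E M q, hy'⟩) (z := ⟨zE E M q, hz'⟩)
    (k := q - 1) hN.ne_top le_rfl le_rfl hq1 ?_ ?_ ?_
  · exact h1 _ (mem_nonunits_of_inW w hS hNlev hV (zE_sub_one_inW w hS hV))
  · exact h2 _ (mem_nonunits_comap_of_inW w hS hNlev hV W (yE_sub_one_inW w hS hV hW))
  · apply Subtype.ext
    show yE E M q * zE E M q = (v : FE E (M * q)) ^ (q - 1)
    rw [hv, yE_mul_zE]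

end LevelQ

section LevelSq

variable (P : ValuationSubring Qb) (E : IntermediateField ℚ Qb) (M q : ℕ) [NeZero M] [NeZero q]
  [NeZero (M * q)]

/-- The coordinate `x = j · j_q · j_{q²}` of level `M q q`. -/
def xSq : FE E (M * q * q) :=
  jE E (M * q * q) 1 (one_dvd _) * jE E (M * q * q) q (dvd_mul_left q (M * q)) *
    jE E (M * q * q) (q * q) (mul_dvd_mul_right (dvd_mul_left q M) q)

theorem alpha_uE : αE E (M * q) q (uE E M q) = (jE E (M * q * q) 1 (one_dvd _))⁻¹ := by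
  rw [uE, map_inv₀, j1, H372.alpha_jE_one]

theorem alpha_uqE :
    αE E (M * q) q (uqE E M q) = (jE E (M * q * q) q (dvd_mul_left q (M * q)))⁻¹ := by
  rw [uqE, map_inv₀, jq1, H372.alpha_jE q (dvd_mul_left q M)]

theorem beta_uE :
    βE E (M * q) q (uE E M q) = (jE E (M * q * q) q (dvd_mul_left q (M * q)))⁻¹ := by
  rw [uE, map_inv₀, j1, H372.beta_jE_one]

theorem beta_uqE :
    βE E (M * q) q (uqE E M q) =
      (jE E (M * q * q) (q * q) (mul_dvd_mul_right (dvd_mul_left q M) q))⁻¹ := by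
  rw [uqE, map_inv₀, jq1, H372.beta_jE q (dvd_mul_left q M)]

theorem alpha_uq_eq_beta_u : αE E (M * q) q (uqE E M q) = βE E (M * q) q (uE E M q) := by
  rw [alpha_uqE, beta_uE]

theorem inv_xSq_eq :
    (xSq E M q)⁻¹ =
      αE E (M * q) q (uE E M q) * αE E (M * q) q (uqE E M q) * βE E (M * q) q (uqE E M q) := by
  rw [alpha_uE, alpha_uqE, beta_uqE, xSq, mul_inv, mul_inv]

variable {P E M q}
variable (w : RE P E)

/-- **Field `cusp_single` of `Eng.TripleCtx`, concrete form**: `x = j j_q j_{q²}`,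
`V₁' = V∞`, `V₂' = V∞ ∘ W` at level `M q`.  The points at infinity of the level-`M q q` model lie
on exactly one component. -/
theorem cusp_single_concrete (hS : Setting P E M q w)
    (V' : ValuationSubring (FE E (M * q))) (W' : FE E (M * q) ≃ₐ[E] FE E (M * q))
    (hV' : IsVinf P E (M * q) V') (hW' : IsFricke E (M * q) W')
    (x : FE E (M * q * q)) (hx : x = xSq E M q)
    (V₁ V₂ V₃ : ValuationSubring (FE E (M * q * q)))
    (hR₁ : ∀ r : RE P E, algebraMap (RE P E) (FE E (M * q * q)) r ∈ V₁)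
    (hR₂ : ∀ r : RE P E, algebraMap (RE P E) (FE E (M * q * q)) r ∈ V₂)
    (hR₃ : ∀ r : RE P E, algebraMap (RE P E) (FE E (M * q * q)) r ∈ V₃)
    (hx₁ : x⁻¹ ∈ V₁) (hx₂ : x⁻¹ ∈ V₂) (hx₃ : x⁻¹ ∈ V₃)
    (chart_αi : ∀ b ∈ chart (RE P E) ({(xE E M q)⁻¹} : Set (FE E (M * q))),
      αE E (M * q) q b ∈ chart (RE P E) ({x⁻¹} : Set (FE E (M * q * q))))
    (chart_βi : ∀ b ∈ chart (RE P E) ({(xE E M q)⁻¹} : Set (FE E (M * q))),
      βE E (M * q) q b ∈ chart (RE P E) ({x⁻¹} : Set (FE E (M * q * q))))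
    (comap_α₁ : V₁.comap (αE E (M * q) q : FE E (M * q) →+* FE E (M * q * q)) = V')
    (comap_α₂ : V₂.comap (αE E (M * q) q : FE E (M * q) →+* FE E (M * q * q)) = V')
    (comap_α₃ : V₃.comap (αE E (M * q) q : FE E (M * q) →+* FE E (M * q * q)) =
      V'.comap (W' : FE E (M * q) →+* FE E (M * q)))
    (comap_β₁ : V₁.comap (βE E (M * q) q : FE E (M * q) →+* FE E (M * q * q)) = V')
    (comap_β₂ : V₂.comap (βE E (M * q) q : FE E (M * q) →+* FE E (M * q * q)) =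
      V'.comap (W' : FE E (M * q) →+* FE E (M * q)))
    (comap_β₃ : V₃.comap (βE E (M * q) q : FE E (M * q) →+* FE E (M * q * q)) =
      V'.comap (W' : FE E (M * q) →+* FE E (M * q))) :
    ∀ 𝔪 : Ideal (chart (RE P E) ({x⁻¹} : Set (FE E (M * q * q)))), 𝔪.IsMaximal →
    algebraMap (RE P E) (chart (RE P E) ({x⁻¹} : Set (FE E (M * q * q)))) w ∈ 𝔪 →
    (⟨x⁻¹, Fermat.Agent.S18.H138.mem_chart_of_mem rfl⟩ :
      chart (RE P E) ({x⁻¹} : Set (FE E (M * q * q)))) ∈ 𝔪 →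
    ¬ ((∀ b : chart (RE P E) ({x⁻¹} : Set (FE E (M * q * q))),
          (b : FE E (M * q * q)) ∈ V₁.nonunits → b ∈ 𝔪) ∧
        (∀ b : chart (RE P E) ({x⁻¹} : Set (FE E (M * q * q))),
          (b : FE E (M * q * q)) ∈ V₂.nonunits → b ∈ 𝔪)) ∧
    ¬ ((∀ b : chart (RE P E) ({x⁻¹} : Set (FE E (M * q * q))),
          (b : FE E (M * q * q)) ∈ V₁.nonunits → b ∈ 𝔪) ∧
        (∀ b : chart (RE P E) ({x⁻¹} : Set (FE E (M * q * q))),
          (b : FE E (M * q * q)) ∈ V₃.nonunits → b ∈ 𝔪)) ∧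
    ¬ ((∀ b : chart (RE P E) ({x⁻¹} : Set (FE E (M * q * q))),
          (b : FE E (M * q * q)) ∈ V₂.nonunits → b ∈ 𝔪) ∧
        (∀ b : chart (RE P E) ({x⁻¹} : Set (FE E (M * q * q))),
          (b : FE E (M * q * q)) ∈ V₃.nonunits → b ∈ 𝔪)) := by
  intro 𝔪 h𝔪 _ hxm
  have hB : ∀ V : ValuationSubring (FE E (M * q * q)),
      (∀ r : RE P E, algebraMap (RE P E) (FE E (M * q * q)) r ∈ V) → x⁻¹ ∈ V →
      ∀ b ∈ chart (RE P E) ({x⁻¹} : Set (FE E (M * q * q))), b ∈ V := fun V hR hxV =>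
    chart_le_valuationSubring V hR (fun s hs => by rw [Set.mem_singleton_iff.mp hs]; exact hxV)
  have hq := hS.q_prime
  exact cusp_single_of (αE E (M * q) q : FE E (M * q) →+* FE E (M * q * q))
    (βE E (M * q) q : FE E (M * q) →+* FE E (M * q * q)) _ _ V₁ V₂ V₃ V'
    (V'.comap (W' : FE E (M * q) →+* FE E (M * q)))
    (hB V₁ hR₁ hx₁) (hB V₂ hR₂ hx₂) (hB V₃ hR₃ hx₃) chart_αi chart_βi
    comap_α₁ comap_α₂ comap_α₃ comap_β₁ comap_β₂ comap_β₃
    (uE E M q) (uqE E M q) (uE_mem_chart P E M q hq) (uqE_mem_chart P E M q hq)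
    (alpha_uq_eq_beta_u E M q) q hq.pos (kron_inf₁ w hS hV') (kron_inf₂ w hS hV' hW')
    (fun N hN h1 h2 => hnode_level_q w hS V' W' hV' hW' N hN h1 h2 _ (uE_mul_uqE E M q))
    𝔪 h𝔪.isPrime _ (by rw [hx]; exact inv_xSq_eq E M q) hxm

end LevelSq

end Fermat.Agent.S36.H153
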