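import Fermat.Agent.S36.H153.IncFull
import Fermat.Agent.S18.H138.Charts

/-!
# S36 engine, cell INCIDENCE (helper153) — the fields `incidence`, `unique_α`, `unique_β` of
`Eng.TripleCtx`, in chart / valuation-subring vocabulary

Imports: Mathlib + `S18.H138.Charts` (for `chart`) + `H153.Incidence/IncFull` (abstract part).
The statements are written with `Eng.Through` / `Eng.IsTriple` UNFOLDED
(`Through B 𝔪 V := ∀ b : B, (b : F) ∈ V.nonunits → b ∈ 𝔪`), so this file does not depend on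
`S36/Eng/Spec.lean`; `IncSpec.lean` restates the results in the vocabulary of the Spec.

Setting: `F'` (level `q M'`), `F` (level `q² M'`) fields, `α β : F' →+* F`,
`B' ⊆ F'`, `B ⊆ F` subalgebras over `R` (the finite charts), valuation subrings
`V₁ V₂ V₃` of `F` (`FF`, `mid`, `VV`) and `V₁' V₂'` of `F'` (`∞`, `0`).

Hypotheses (`ChartInc`), all of them elementwise:

* `B ⊆ V₁ ∩ V₂ ∩ V₃`;  `α B' ⊆ B`, `β B' ⊆ B`;  `B` integral over `α B'` and over `β B'`;
  `B'` integrally closed in `F'`;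
* the comap table of the Spec;
* `w`-cover: a product `b₁ b₂ ^ e b₃` with `bᵢ ∈ B ∩ 𝔪_{Vᵢ}` is divisible by `w` in `B`
  (from `Qep3` and the multiplicities `1, q - 1, 1`: `mul_of_qep3`);
* incomparability at level `q`: `B' ∩ 𝔪_{V₁'} ⊄ 𝔪_{V₂'}` and `B' ∩ 𝔪_{V₂'} ⊄ 𝔪_{V₁'}`;
* radicial: `b ^ k ≡ α b' mod 𝔪_{V₃}` and `b ^ k ≡ β b' mod 𝔪_{V₁}` for suitable `k > 0`,
  `b' ∈ B'` (purely inseparable residue extensions of degree `q`, `k = q`).

Results: `ChartInc.incData` (the abstract `IncData` of `Incidence.lean`), and the three fields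
`ChartInc.incidence`, `ChartInc.unique_α`, `ChartInc.unique_β` for maximal ideals (prime ideals
for `incidence`).
-/

set_option autoImplicit false
set_option linter.style.haveILetI false
set_option linter.unusedSectionVars false

namespace Fermat.Agent.S36.H153

open Fermat.Agent.S18.H138 (chart)

/-! ## Vertical primes of a subalgebra -/

section VPrime

variable {R F : Type*} [CommRing R] [Field F] [Algebra R F]

theorem nonunits_add_mem (V : ValuationSubring F) {a b : F} (ha : a ∈ V.nonunits)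
    (hb : b ∈ V.nonunits) : a + b ∈ V.nonunits := by
  rw [ValuationSubring.mem_nonunits_iff] at ha hb ⊢
  exact lt_of_le_of_lt (V.valuation.map_add a b) (max_lt ha hb)

theorem nonunits_mul_mem (V : ValuationSubring F) {a b : F} (ha : a ∈ V)
    (hb : b ∈ V.nonunits) : a * b ∈ V.nonunits := by
  rw [ValuationSubring.mem_nonunits_iff] at hb ⊢
  rw [map_mul]
  have h1 : V.valuation a ≤ 1 := (V.valuation_le_one_iff a).mpr ha
  calc V.valuation a * V.valuation b ≤ 1 * V.valuation b := by gcongr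
    _ = V.valuation b := one_mul _
    _ < 1 := hb

theorem nonunits_sub_mem (V : ValuationSubring F) {a b : F} (ha : a ∈ V.nonunits)
    (hb : b ∈ V.nonunits) : a - b ∈ V.nonunits := by
  have h : -b ∈ V.nonunits := by
    rw [ValuationSubring.mem_nonunits_iff] at hb ⊢
    rwa [Valuation.map_neg]
  simpa [sub_eq_add_neg] using nonunits_add_mem V ha h

theorem mem_of_mem_nonunits (V : ValuationSubring F) {a : F} (ha : a ∈ V.nonunits) : a ∈ V := by
  rw [ValuationSubring.mem_nonunits_iff] at ha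
  exact (V.valuation_le_one_iff a).mp ha.le

theorem mem_nonunits_or_of_mul (V : ValuationSubring F) {a b : F} (ha : a ∈ V) (hb : b ∈ V)
    (hab : a * b ∈ V.nonunits) : a ∈ V.nonunits ∨ b ∈ V.nonunits := by
  rw [ValuationSubring.mem_nonunits_iff] at hab
  by_contra hcon
  push Not at hcon
  obtain ⟨h1, h2⟩ := hcon
  rw [ValuationSubring.mem_nonunits_iff, not_lt] at h1 h2
  have h1' : V.valuation a = 1 := le_antisymm ((V.valuation_le_one_iff a).mpr ha) h1
  have h2' : V.valuation b = 1 := le_antisymm ((V.valuation_le_one_iff b).mpr hb) h2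
  rw [map_mul, h1', h2', one_mul] at hab
  exact lt_irrefl _ hab

theorem one_not_mem_nonunits (V : ValuationSubring F) : (1 : F) ∉ V.nonunits := by
  rw [ValuationSubring.mem_nonunits_iff, map_one]
  exact lt_irrefl _

theorem pow_mem_nonunits (V : ValuationSubring F) {a : F} (ha : a ∈ V.nonunits) {k : ℕ}
    (hk : 0 < k) : a ^ k ∈ V.nonunits := by
  obtain ⟨j, rfl⟩ : ∃ j, k = j + 1 := ⟨k - 1, by omega⟩
  rw [pow_succ]
  exact nonunits_mul_mem V (V.pow_mem (mem_of_mem_nonunits V ha) j) ha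

/-- Membership in the maximal ideal of a comap, for a homomorphism of fields. -/
theorem mem_nonunits_comap {F' : Type*} [Field F'] (α : F' →+* F) (V : ValuationSubring F)
    (b : F') : b ∈ (V.comap α).nonunits ↔ α b ∈ V.nonunits := by
  rw [ValuationSubring.mem_nonunits_iff, ValuationSubring.mem_nonunits_iff]
  by_cases hb : b = 0
  · subst hb; simp
  · have hαb : α b ≠ 0 := (map_ne_zero α).mpr hb
    constructor
    · intro h
      by_contra hcon
      rw [not_lt] at hcon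
      have h1 : (α b)⁻¹ ∈ V := by
        rw [← V.valuation_le_one_iff, map_inv₀]
        exact inv_le_one_of_one_le₀ hcon
      have h2 : b⁻¹ ∈ V.comap α := by
        rw [ValuationSubring.mem_comap, map_inv₀]; exact h1
      have h3 : (V.comap α).valuation b⁻¹ ≤ 1 := ((V.comap α).valuation_le_one_iff _).mpr h2
      rw [map_inv₀] at h3
      have h4 : (V.comap α).valuation b ≠ 0 := ((V.comap α).valuation.ne_zero_iff).mpr hb
      have h5 : 1 ≤ (V.comap α).valuation b := by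
        have := (inv_le_one₀ (zero_lt_iff.mpr h4)).mp h3
        exact this
      exact absurd h (not_lt.mpr h5)
    · intro h
      by_contra hcon
      rw [not_lt] at hcon
      have h1 : b⁻¹ ∈ V.comap α := by
        rw [← (V.comap α).valuation_le_one_iff, map_inv₀]
        exact inv_le_one_of_one_le₀ hcon
      have h2 : (α b)⁻¹ ∈ V := by
        rw [ValuationSubring.mem_comap, map_inv₀] at h1; exact h1
      have h3 : V.valuation (α b)⁻¹ ≤ 1 := (V.valuation_le_one_iff _).mpr h2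
      rw [map_inv₀] at h3
      have h4 : V.valuation (α b) ≠ 0 := (V.valuation.ne_zero_iff).mpr hαb
      have h5 : 1 ≤ V.valuation (α b) := (inv_le_one₀ (zero_lt_iff.mpr h4)).mp h3
      exact absurd h (not_lt.mpr h5)

/-- The vertical prime `B ∩ 𝔪_V` of a subalgebra `B ⊆ V`. -/
def vprime (B : Subalgebra R F) (V : ValuationSubring F) (hBV : ∀ b ∈ B, b ∈ V) : Ideal B where
  carrier := {b | (b : F) ∈ V.nonunits}
  zero_mem' := by
    show ((0 : B) : F) ∈ V.nonunits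
    rw [ValuationSubring.mem_nonunits_iff]; simp
  add_mem' := fun {a b} ha hb => by
    show ((a + b : B) : F) ∈ V.nonunits
    rw [Subalgebra.coe_add]
    exact nonunits_add_mem V ha hb
  smul_mem' := fun c b hb => by
    show ((c • b : B) : F) ∈ V.nonunits
    rw [smul_eq_mul, Subalgebra.coe_mul]
    exact nonunits_mul_mem V (hBV _ c.2) hb

theorem mem_vprime {B : Subalgebra R F} {V : ValuationSubring F} {hBV : ∀ b ∈ B, b ∈ V} {b : B} :
    b ∈ vprime B V hBV ↔ (b : F) ∈ V.nonunits := Iff.rfl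

theorem vprime_isPrime (B : Subalgebra R F) (V : ValuationSubring F) (hBV : ∀ b ∈ B, b ∈ V) :
    (vprime B V hBV).IsPrime := by
  refine ⟨?_, ?_⟩
  · intro h
    have h1 : (1 : B) ∈ vprime B V hBV := by rw [h]; trivial
    rw [mem_vprime, Subalgebra.coe_one] at h1
    exact one_not_mem_nonunits V h1
  · intro a b hab
    rw [mem_vprime, Subalgebra.coe_mul] at hab
    exact mem_nonunits_or_of_mul V (hBV _ a.2) (hBV _ b.2) hab

/-- `Through B 𝔪 V` (unfolded) is `vprime B V ≤ 𝔪`. -/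
theorem through_iff {B : Subalgebra R F} {V : ValuationSubring F} {hBV : ∀ b ∈ B, b ∈ V}
    {𝔪 : Ideal B} : (∀ b : B, (b : F) ∈ V.nonunits → b ∈ 𝔪) ↔ vprime B V hBV ≤ 𝔪 :=
  Iff.rfl

/-- A chart is contained in every valuation subring containing `R` and the coordinate. -/
theorem chart_le_valuationSubring (V : ValuationSubring F) {S : Set F}
    (hR : ∀ r : R, algebraMap R F r ∈ V) (hS : ∀ s ∈ S, s ∈ V) : ∀ b ∈ chart R S, b ∈ V := by
  intro b hb
  rw [Fermat.Agent.S18.H138.mem_chart] at hb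
  have hadj : ∀ a ∈ Algebra.adjoin R S, a ∈ V := by
    intro a ha
    induction ha using Algebra.adjoin_induction with
    | mem y hy => exact hS y hy
    | algebraMap r => exact hR r
    | add y z _ _ hy hz => exact V.add_mem _ _ hy hz
    | mul y z _ _ hy hz => exact V.mul_mem _ _ hy hz
  obtain ⟨p, hp, hpb⟩ := hb
  have hint : IsIntegral V b := by
    refine ⟨p.map ((Algebra.adjoin R S).val.toRingHom.codRestrict V (fun a => hadj a a.2)),
      hp.map _, ?_⟩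
    rw [Polynomial.eval₂_map]
    exact hpb
  obtain ⟨y, hy⟩ := (IsIntegrallyClosed.isIntegral_iff (R := V) (K := F)).mp hint
  rw [← hy]
  exact y.2

end VPrime

/-! ## Restriction of a field homomorphism to subalgebras -/

section Res

variable {R F F' : Type*} [CommRing R] [Field F] [Algebra R F] [Field F'] [Algebra R F']

/-- The restriction of `α : F' → F` to subalgebras `B' → B`. -/
def resHom (α : F' →+* F) (B' : Subalgebra R F') (B : Subalgebra R F)
    (h : ∀ b ∈ B', α b ∈ B) : B' →+* B :=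
  (α.comp B'.val.toRingHom).codRestrict B (fun b => h b b.2)

@[simp]
theorem coe_resHom (α : F' →+* F) (B' : Subalgebra R F') (B : Subalgebra R F)
    (h : ∀ b ∈ B', α b ∈ B) (b : B') : ((resHom α B' B h b : B) : F) = α (b : F') := rfl

theorem resHom_injective (α : F' →+* F) (B' : Subalgebra R F') (B : Subalgebra R F)
    (h : ∀ b ∈ B', α b ∈ B) : Function.Injective (resHom α B' B h) := by
  intro a b hab
  have h1 : α (a : F') = α (b : F') := congrArg (fun z : B => (z : F)) hab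
  exact Subtype.ext (α.injective h1)

theorem resHom_isIntegral (α : F' →+* F) (B' : Subalgebra R F') (B : Subalgebra R F)
    (h : ∀ b ∈ B', α b ∈ B)
    (hint : ∀ b ∈ B, ∃ p : Polynomial F', p.Monic ∧ (∀ i, p.coeff i ∈ B') ∧
      (p.map α).eval b = 0) : (resHom α B' B h).IsIntegral := by
  intro b
  obtain ⟨p, hp, hc, he⟩ := hint b b.2
  have hl : p ∈ Polynomial.lifts B'.val.toRingHom := by
    rw [Polynomial.lifts_iff_coeff_lifts]
    intro n
    exact ⟨⟨p.coeff n, hc n⟩, rfl⟩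
  obtain ⟨P, hPp, -, hPm⟩ := Polynomial.lifts_and_degree_eq_and_monic hl hp
  refine ⟨P, hPm, ?_⟩
  apply Subtype.ext
  have h1 : ((Polynomial.eval₂ (resHom α B' B h) b P : B) : F) =
      Polynomial.eval₂ (B.val.toRingHom.comp (resHom α B' B h)) (b : F) P := by
    have := Polynomial.hom_eval₂ P (resHom α B' B h) B.val.toRingHom b
    simpa using this
  rw [h1]
  have h2 : B.val.toRingHom.comp (resHom α B' B h) = α.comp B'.val.toRingHom := by
    ext z; rfl
  rw [h2, ← Polynomial.eval₂_map, hPp, Polynomial.eval₂_eq_eval_map]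
  simpa using he

theorem comap_vprime (α : F' →+* F) (B' : Subalgebra R F') (B : Subalgebra R F)
    (h : ∀ b ∈ B', α b ∈ B) (V : ValuationSubring F) (V' : ValuationSubring F')
    (hBV : ∀ b ∈ B, b ∈ V) (hBV' : ∀ b ∈ B', b ∈ V') (hcomap : V.comap α = V') :
    (vprime B V hBV).comap (resHom α B' B h) = vprime B' V' hBV' := by
  ext b
  rw [Ideal.mem_comap, mem_vprime, mem_vprime, coe_resHom, ← hcomap, mem_nonunits_comap]

/-- A subalgebra of a field which is integrally closed in the field is an integrally closed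
domain. -/
theorem isIntegrallyClosed_of_closed (B' : Subalgebra R F')
    (hcl : ∀ f : F', IsIntegral B' f → f ∈ B') : IsIntegrallyClosed B' := by
  haveI : IsIntegrallyClosedIn B' F' := by
    rw [isIntegrallyClosedIn_iff]
    refine ⟨Subtype.val_injective, fun {x} hx => ⟨⟨x, hcl x hx⟩, rfl⟩⟩
  exact IsIntegrallyClosed.of_isIntegrallyClosedIn B' F'

/-- Charts are integrally closed in the ambient field. -/
theorem chart_closed (S : Set F') (f : F') (hf : IsIntegral (chart R S) f) : f ∈ chart R S := by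
  rw [Fermat.Agent.S18.H138.mem_chart]
  have h1 : IsIntegral (integralClosure (Algebra.adjoin R S) F') f := hf
  exact isIntegral_trans (A := integralClosure (Algebra.adjoin R S) F') f h1

end Res

/-! ## The chart-level incidence datum -/

section Chart

variable {R F F' : Type*} [CommRing R] [Field F] [Algebra R F] [Field F'] [Algebra R F']

/-- **Chart-level incidence hypotheses** (all elementwise; see the header). -/
structure ChartInc (w : R) (e : ℕ) (α β : F' →+* F) (B' : Subalgebra R F') (B : Subalgebra R F)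
    (V₁ V₂ V₃ : ValuationSubring F) (V₁' V₂' : ValuationSubring F') : Prop where
  B_le₁ : ∀ b ∈ B, b ∈ V₁
  B_le₂ : ∀ b ∈ B, b ∈ V₂
  B_le₃ : ∀ b ∈ B, b ∈ V₃
  chart_α : ∀ b ∈ B', α b ∈ B
  chart_β : ∀ b ∈ B', β b ∈ B
  int_α : ∀ b ∈ B, ∃ p : Polynomial F', p.Monic ∧ (∀ i, p.coeff i ∈ B') ∧ (p.map α).eval b = 0
  int_β : ∀ b ∈ B, ∃ p : Polynomial F', p.Monic ∧ (∀ i, p.coeff i ∈ B') ∧ (p.map β).eval b = 0
  closed' : ∀ f : F', IsIntegral B' f → f ∈ B'
  comap_α₁ : V₁.comap α = V₁'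
  comap_α₂ : V₂.comap α = V₁'
  comap_α₃ : V₃.comap α = V₂'
  comap_β₁ : V₁.comap β = V₁'
  comap_β₂ : V₂.comap β = V₂'
  comap_β₃ : V₃.comap β = V₂'
  α_w : α (algebraMap R F' w) = algebraMap R F w
  β_w : β (algebraMap R F' w) = algebraMap R F w
  w_mem₁ : algebraMap R F w ∈ V₁.nonunits
  w_mem₃ : algebraMap R F w ∈ V₃.nonunits
  /-- `w B ⊇ p_FF · p_mid ^ e · p_VV` -/
  cover : ∀ b₁ b₂ b₃ : B, (b₁ : F) ∈ V₁.nonunits → (b₂ : F) ∈ V₂.nonunits →
    (b₃ : F) ∈ V₃.nonunits → ∃ c : B, b₁ * b₂ ^ e * b₃ = algebraMap R B w * c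
  /-- the two vertical primes of level `q` are incomparable -/
  inc₁₂ : ∃ b' ∈ B', b' ∈ V₁'.nonunits ∧ b' ∉ V₂'.nonunits
  inc₂₁ : ∃ b' ∈ B', b' ∈ V₂'.nonunits ∧ b' ∉ V₁'.nonunits
  /-- `VV` is radicial over level `q` via `α` -/
  rad_α : ∀ b ∈ B, ∃ k : ℕ, 0 < k ∧ ∃ b' ∈ B', b ^ k - α b' ∈ V₃.nonunits
  /-- `FF` is radicial over level `q` via `β` -/
  rad_β : ∀ b ∈ B, ∃ k : ℕ, 0 < k ∧ ∃ b' ∈ B', b ^ k - β b' ∈ V₁.nonunits

namespace ChartInc

variable {w : R} {e : ℕ} {α β : F' →+* F} {B' : Subalgebra R F'} {B : Subalgebra R F}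
  {V₁ V₂ V₃ : ValuationSubring F} {V₁' V₂' : ValuationSubring F'}

theorem B'_le₁ (D : ChartInc w e α β B' B V₁ V₂ V₃ V₁' V₂') : ∀ b ∈ B', b ∈ V₁' := by
  intro b hb
  rw [← D.comap_α₁, ValuationSubring.mem_comap]
  exact D.B_le₁ _ (D.chart_α b hb)

theorem B'_le₂ (D : ChartInc w e α β B' B V₁ V₂ V₃ V₁' V₂') : ∀ b ∈ B', b ∈ V₂' := by
  intro b hb
  rw [← D.comap_α₃, ValuationSubring.mem_comap]
  exact D.B_le₃ _ (D.chart_α b hb)

/-- The two degeneracy maps on the charts. -/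
noncomputable abbrev aHom (D : ChartInc w e α β B' B V₁ V₂ V₃ V₁' V₂') : B' →+* B :=
  resHom α B' B D.chart_α

noncomputable abbrev bHom (D : ChartInc w e α β B' B V₁ V₂ V₃ V₁' V₂') : B' →+* B :=
  resHom β B' B D.chart_β

/-- The cover statement: a prime of `B` containing `w` lies on one of the three components. -/
theorem cover_prime (D : ChartInc w e α β B' B V₁ V₂ V₃ V₁' V₂') (p : Ideal B) (hp : p.IsPrime)
    (hw : algebraMap R B w ∈ p) :
    vprime B V₁ D.B_le₁ ≤ p ∨ vprime B V₂ D.B_le₂ ≤ p ∨ vprime B V₃ D.B_le₃ ≤ p := by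
  by_contra hcon
  push Not at hcon
  obtain ⟨h1, h2, h3⟩ := hcon
  obtain ⟨b₁, hb₁, hb₁p⟩ := Set.not_subset.mp h1
  obtain ⟨b₂, hb₂, hb₂p⟩ := Set.not_subset.mp h2
  obtain ⟨b₃, hb₃, hb₃p⟩ := Set.not_subset.mp h3
  obtain ⟨c, hc⟩ := D.cover b₁ b₂ b₃ hb₁ hb₂ hb₃
  have hmem : b₁ * b₂ ^ e * b₃ ∈ p := by rw [hc]; exact p.mul_mem_right _ hw
  rcases hp.mem_or_mem hmem with h12 | h3'
  · rcases hp.mem_or_mem h12 with h1' | h2'
    · exact hb₁p h1'
    · exact hb₂p (hp.mem_of_pow_mem e h2')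
  · exact hb₃p h3'

/-- **The abstract incidence datum of the charts.** -/
theorem incData (D : ChartInc w e α β B' B V₁ V₂ V₃ V₁' V₂') :
    IncData D.aHom D.bHom (vprime B' V₁' D.B'_le₁) (vprime B' V₂' D.B'_le₂)
      (vprime B V₁ D.B_le₁) (vprime B V₂ D.B_le₂) (vprime B V₃ D.B_le₃) := by
  have aint := resHom_isIntegral α B' B D.chart_α D.int_α
  have bint := resHom_isIntegral β B' B D.chart_β D.int_β
  have aFF := comap_vprime α B' B D.chart_α V₁ V₁' D.B_le₁ D.B'_le₁ D.comap_α₁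
  have amid := comap_vprime α B' B D.chart_α V₂ V₁' D.B_le₂ D.B'_le₁ D.comap_α₂
  have aVV := comap_vprime α B' B D.chart_α V₃ V₂' D.B_le₃ D.B'_le₂ D.comap_α₃
  have bFF := comap_vprime β B' B D.chart_β V₁ V₁' D.B_le₁ D.B'_le₁ D.comap_β₁
  have bmid := comap_vprime β B' B D.chart_β V₂ V₂' D.B_le₂ D.B'_le₂ D.comap_β₂
  have bVV := comap_vprime β B' B D.chart_β V₃ V₂' D.B_le₃ D.B'_le₂ D.comap_β₃
  have h12 : ¬ vprime B' V₁' D.B'_le₁ ≤ vprime B' V₂' D.B'_le₂ := by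
    obtain ⟨b', hb', h1, h2⟩ := D.inc₁₂
    intro hle
    exact h2 (hle (show (⟨b', hb'⟩ : B') ∈ vprime B' V₁' D.B'_le₁ from h1))
  have h21 : ¬ vprime B' V₂' D.B'_le₂ ≤ vprime B' V₁' D.B'_le₁ := by
    obtain ⟨b', hb', h1, h2⟩ := D.inc₂₁
    intro hle
    exact h2 (hle (show (⟨b', hb'⟩ : B') ∈ vprime B' V₂' D.B'_le₂ from h1))
  -- `w` at level `q`
  have hw₂' : algebraMap R B' w ∈ vprime B' V₂' D.B'_le₂ := by
    show ((algebraMap R B' w : B') : F') ∈ V₂'.nonunits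
    rw [← D.comap_α₃, mem_nonunits_comap]
    have : α ((algebraMap R B' w : B') : F') = algebraMap R F w := D.α_w
    rw [this]; exact D.w_mem₃
  have hw₁' : algebraMap R B' w ∈ vprime B' V₁' D.B'_le₁ := by
    show ((algebraMap R B' w : B') : F') ∈ V₁'.nonunits
    rw [← D.comap_α₁, mem_nonunits_comap]
    have : α ((algebraMap R B' w : B') : F') = algebraMap R F w := D.α_w
    rw [this]; exact D.w_mem₁
  have haw : D.aHom (algebraMap R B' w) = algebraMap R B w := Subtype.ext D.α_w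
  have hbw : D.bHom (algebraMap R B' w) = algebraMap R B w := Subtype.ext D.β_w
  haveI := vprime_isPrime B V₁ D.B_le₁
  haveI := vprime_isPrime B V₂ D.B_le₂
  haveI := vprime_isPrime B V₃ D.B_le₃
  refine
    { a_inj := resHom_injective α B' B D.chart_α
      b_inj := resHom_injective β B' B D.chart_β
      a_int := aint
      b_int := bint
      primeP1 := vprime_isPrime B' V₁' D.B'_le₁
      primeP2 := vprime_isPrime B' V₂' D.B'_le₂
      primeFF := vprime_isPrime B V₁ D.B_le₁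
      primeMid := vprime_isPrime B V₂ D.B_le₂
      primeVV := vprime_isPrime B V₃ D.B_le₃
      a_FF := aFF
      a_mid := amid
      a_VV := aVV
      b_FF := bFF
      b_mid := bmid
      b_VV := bVV
      a_only := ?_
      b_only := ?_
      a_rad := ?_
      b_rad := ?_ }
  · -- `VV` is the only prime over `C₂'` via `α`
    intro p hp hc
    refine only_of_cover D.aHom aint (P := vprime B' V₂' D.B'_le₂)
      (p₁ := vprime B V₁ D.B_le₁) (p₂ := vprime B V₂ D.B_le₂) (p₃ := vprime B V₃ D.B_le₃)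
      hw₂' (fun p hp hwp => D.cover_prime p hp (haw ▸ hwp)) ?_ ?_ aVV p hp hc
    · rw [aFF]; exact h12
    · rw [amid]; exact h12
  · -- `FF` is the only prime over `C₁'` via `β`
    intro p hp hc
    refine only_of_cover D.bHom bint (P := vprime B' V₁' D.B'_le₁)
      (p₁ := vprime B V₃ D.B_le₃) (p₂ := vprime B V₂ D.B_le₂) (p₃ := vprime B V₁ D.B_le₁)
      hw₁' (fun p hp hwp => ?_) ?_ ?_ bFF p hp hc
    · rcases D.cover_prime p hp (hbw ▸ hwp) with h | h | h
      · exact Or.inr (Or.inr h)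
      · exact Or.inr (Or.inl h)
      · exact Or.inl h
    · rw [bVV]; exact h21
    · rw [bmid]; exact h21
  · intro b
    obtain ⟨k, hk, b', hb', h⟩ := D.rad_α b b.2
    exact ⟨k, hk, ⟨b', hb'⟩, h⟩
  · intro b
    obtain ⟨k, hk, b', hb', h⟩ := D.rad_β b b.2
    exact ⟨k, hk, ⟨b', hb'⟩, h⟩

/-- **Field `incidence` of `Eng.TripleCtx`** (for prime ideals): a point of the chart on two of
the three components is a triple point. -/
theorem incidence (D : ChartInc w e α β B' B V₁ V₂ V₃ V₁' V₂') (𝔪 : Ideal B) (h𝔪 : 𝔪.IsPrime)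
    (h : ((∀ b : B, (b : F) ∈ V₁.nonunits → b ∈ 𝔪) ∧ (∀ b : B, (b : F) ∈ V₂.nonunits → b ∈ 𝔪)) ∨
      ((∀ b : B, (b : F) ∈ V₁.nonunits → b ∈ 𝔪) ∧ (∀ b : B, (b : F) ∈ V₃.nonunits → b ∈ 𝔪)) ∨
      ((∀ b : B, (b : F) ∈ V₂.nonunits → b ∈ 𝔪) ∧ (∀ b : B, (b : F) ∈ V₃.nonunits → b ∈ 𝔪))) :
    (∀ b : B, (b : F) ∈ V₁.nonunits → b ∈ 𝔪) ∧ (∀ b : B, (b : F) ∈ V₂.nonunits → b ∈ 𝔪) ∧
      (∀ b : B, (b : F) ∈ V₃.nonunits → b ∈ 𝔪) := by
  haveI := h𝔪
  haveI : IsIntegrallyClosed B' := isIntegrallyClosed_of_closed B' D.closed'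
  exact D.incData.triple_of_two 𝔪 h

/-- The contraction of a maximal ideal along an integral map, order form. -/
theorem comap_eq_of_forall {A C : Type*} [CommRing A] [CommRing C] (a : A →+* C)
    (ha : a.IsIntegral) (𝔪 𝔪' : Ideal C) (h𝔪 : 𝔪.IsMaximal) (h𝔪' : 𝔪'.IsMaximal)
    (h : ∀ x : A, a x ∈ 𝔪 → a x ∈ 𝔪') : 𝔪'.comap a = 𝔪.comap a := by
  haveI := h𝔪
  haveI := h𝔪'
  haveI : (𝔪.comap a).IsMaximal := Ideal.isMaximal_comap_of_isIntegral_of_isMaximal' a ha 𝔪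
  have hne : 𝔪'.comap a ≠ ⊤ := (Ideal.comap_isPrime a 𝔪').ne_top
  exact (Ideal.IsMaximal.eq_of_le ‹(𝔪.comap a).IsMaximal› hne (fun x hx => h x hx)).symm

/-- **Field `unique_α` of `Eng.TripleCtx`**: a closed point on `VV` (in particular a triple
point) is the only closed point of the chart over its image under `α`. -/
theorem unique_α_of_vv (D : ChartInc w e α β B' B V₁ V₂ V₃ V₁' V₂') (𝔪 𝔪' : Ideal B)
    (h𝔪 : 𝔪.IsMaximal) (h𝔪' : 𝔪'.IsMaximal)
    (ht : ∀ b : B, (b : F) ∈ V₃.nonunits → b ∈ 𝔪)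
    (h : ∀ (b' : F') (hb' : b' ∈ B'), (⟨α b', D.chart_α b' hb'⟩ : B) ∈ 𝔪 →
      (⟨α b', D.chart_α b' hb'⟩ : B) ∈ 𝔪') : 𝔪' = 𝔪 := by
  haveI : IsIntegrallyClosed B' := isIntegrallyClosed_of_closed B' D.closed'
  haveI := h𝔪.isPrime
  haveI := h𝔪'.isPrime
  have hc : 𝔪'.comap D.aHom = 𝔪.comap D.aHom :=
    comap_eq_of_forall D.aHom D.incData.a_int 𝔪 𝔪' h𝔪 h𝔪' (fun x hx => h x.1 x.2 hx)
  exact D.incData.unique_over_a 𝔪 𝔪' ht hc

theorem unique_α (D : ChartInc w e α β B' B V₁ V₂ V₃ V₁' V₂') (𝔪 𝔪' : Ideal B)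
    (h𝔪 : 𝔪.IsMaximal) (h𝔪' : 𝔪'.IsMaximal)
    (ht : (∀ b : B, (b : F) ∈ V₁.nonunits → b ∈ 𝔪) ∧ (∀ b : B, (b : F) ∈ V₂.nonunits → b ∈ 𝔪) ∧
      (∀ b : B, (b : F) ∈ V₃.nonunits → b ∈ 𝔪))
    (h : ∀ (b' : F') (hb' : b' ∈ B'), (⟨α b', D.chart_α b' hb'⟩ : B) ∈ 𝔪 →
      (⟨α b', D.chart_α b' hb'⟩ : B) ∈ 𝔪') : 𝔪' = 𝔪 :=
  D.unique_α_of_vv 𝔪 𝔪' h𝔪 h𝔪' ht.2.2 h

/-- **Field `unique_β` of `Eng.TripleCtx`**: a closed point on `FF` (in particular a triple
point) is the only closed point of the chart over its image under `β`. -/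
theorem unique_β_of_ff (D : ChartInc w e α β B' B V₁ V₂ V₃ V₁' V₂') (𝔪 𝔪' : Ideal B)
    (h𝔪 : 𝔪.IsMaximal) (h𝔪' : 𝔪'.IsMaximal)
    (ht : ∀ b : B, (b : F) ∈ V₁.nonunits → b ∈ 𝔪)
    (h : ∀ (b' : F') (hb' : b' ∈ B'), (⟨β b', D.chart_β b' hb'⟩ : B) ∈ 𝔪 →
      (⟨β b', D.chart_β b' hb'⟩ : B) ∈ 𝔪') : 𝔪' = 𝔪 := by
  haveI : IsIntegrallyClosed B' := isIntegrallyClosed_of_closed B' D.closed'
  haveI := h𝔪.isPrime
  haveI := h𝔪'.isPrime
  have hc : 𝔪'.comap D.bHom = 𝔪.comap D.bHom :=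
    comap_eq_of_forall D.bHom D.incData.b_int 𝔪 𝔪' h𝔪 h𝔪' (fun x hx => h x.1 x.2 hx)
  exact D.incData.unique_over_b 𝔪 𝔪' ht hc

theorem unique_β (D : ChartInc w e α β B' B V₁ V₂ V₃ V₁' V₂') (𝔪 𝔪' : Ideal B)
    (h𝔪 : 𝔪.IsMaximal) (h𝔪' : 𝔪'.IsMaximal)
    (ht : (∀ b : B, (b : F) ∈ V₁.nonunits → b ∈ 𝔪) ∧ (∀ b : B, (b : F) ∈ V₂.nonunits → b ∈ 𝔪) ∧
      (∀ b : B, (b : F) ∈ V₃.nonunits → b ∈ 𝔪))
    (h : ∀ (b' : F') (hb' : b' ∈ B'), (⟨β b', D.chart_β b' hb'⟩ : B) ∈ 𝔪 →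
      (⟨β b', D.chart_β b' hb'⟩ : B) ∈ 𝔪') : 𝔪' = 𝔪 :=
  D.unique_β_of_ff 𝔪 𝔪' h𝔪 h𝔪' ht.1 h

end ChartInc

end Chart

/-! ## Adapters for the hypotheses `cover`, `rad_α`, `rad_β` -/

section Adapters

variable {R F F' : Type*} [CommRing R] [Field F] [Algebra R F] [Field F'] [Algebra R F']

/-- `cover` from the `q`-expansion principle `Qep3` (unfolded) and the multiplicities:
`w` divides every element of `𝔪_{V₁}` and of `𝔪_{V₃}`, and the `e`-th power of every element of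
`𝔪_{V₂}` (`e = q - 1`). -/
theorem cover_of_qep (w : R) (e : ℕ) (B : Subalgebra R F) (V₁ V₂ V₃ : ValuationSubring F)
    (hB₁ : ∀ b ∈ B, b ∈ V₁) (hB₂ : ∀ b ∈ B, b ∈ V₂) (hB₃ : ∀ b ∈ B, b ∈ V₃)
    (qep : ∀ b : B, (b : F) * (algebraMap R F w)⁻¹ ∈ V₁ → (b : F) * (algebraMap R F w)⁻¹ ∈ V₂ →
      (b : F) * (algebraMap R F w)⁻¹ ∈ V₃ → ∃ c : B, b = algebraMap R B w * c)
    (u₁ : ∀ f ∈ V₁.nonunits, f * (algebraMap R F w)⁻¹ ∈ V₁)
    (u₂ : ∀ f ∈ V₂.nonunits, f ^ e * (algebraMap R F w)⁻¹ ∈ V₂)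
    (u₃ : ∀ f ∈ V₃.nonunits, f * (algebraMap R F w)⁻¹ ∈ V₃)
    (b₁ b₂ b₃ : B) (h₁ : (b₁ : F) ∈ V₁.nonunits) (h₂ : (b₂ : F) ∈ V₂.nonunits)
    (h₃ : (b₃ : F) ∈ V₃.nonunits) : ∃ c : B, b₁ * b₂ ^ e * b₃ = algebraMap R B w * c := by
  refine qep (b₁ * b₂ ^ e * b₃) ?_ ?_ ?_
  · have : ((b₁ * b₂ ^ e * b₃ : B) : F) * (algebraMap R F w)⁻¹ =
        ((b₁ : F) * (algebraMap R F w)⁻¹) * ((b₂ : F) ^ e * (b₃ : F)) := by
      push_cast; ring
    rw [this]
    exact V₁.mul_mem _ _ (u₁ _ h₁)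
      (V₁.mul_mem _ _ (V₁.pow_mem (hB₁ _ b₂.2) e) (hB₁ _ b₃.2))
  · have : ((b₁ * b₂ ^ e * b₃ : B) : F) * (algebraMap R F w)⁻¹ =
        ((b₂ : F) ^ e * (algebraMap R F w)⁻¹) * ((b₁ : F) * (b₃ : F)) := by
      push_cast; ring
    rw [this]
    exact V₂.mul_mem _ _ (u₂ _ h₂) (V₂.mul_mem _ _ (hB₂ _ b₁.2) (hB₂ _ b₃.2))
  · have : ((b₁ * b₂ ^ e * b₃ : B) : F) * (algebraMap R F w)⁻¹ =
        ((b₃ : F) * (algebraMap R F w)⁻¹) * ((b₁ : F) * (b₂ : F) ^ e) := by
      push_cast; ring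
    rw [this]
    exact V₃.mul_mem _ _ (u₃ _ h₃)
      (V₃.mul_mem _ _ (hB₃ _ b₁.2) (V₃.pow_mem (hB₃ _ b₂.2) e))

/-- The hypothesis `u₂` of `cover_of_qep` from a uniformiser `t ≠ 0` of `V₂` with
`w = unit · t ^ e`  (field `ram₂` of the Spec). -/
theorem pow_div_mem_of_ram (V : ValuationSubring F) (ϖ t : F) (e : ℕ) (ht : t ≠ 0)
    (hunif : ∀ f ∈ V.nonunits, f * t⁻¹ ∈ V) (hram : (ϖ * (t ^ e)⁻¹)⁻¹ ∈ V) :
    ∀ f ∈ V.nonunits, f ^ e * ϖ⁻¹ ∈ V := by
  intro f hf
  by_cases hϖ : ϖ = 0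
  · subst hϖ
    simp [V.zero_mem]
  have h1 : f ^ e * ϖ⁻¹ = (f * t⁻¹) ^ e * (ϖ * (t ^ e)⁻¹)⁻¹ := by
    have hte : t ^ e ≠ 0 := pow_ne_zero e ht
    rw [mul_pow, inv_pow, mul_inv, inv_inv]
    field_simp
  rw [h1]
  exact V.mul_mem _ _ (V.pow_mem (hunif f hf) e) hram

/-- Congruent elements of `V` have congruent values under a polynomial with coefficients in
`V`. -/
theorem eval_sub_eval_mem_nonunits (V : ValuationSubring F) (p : Polynomial F)
    (hp : ∀ i, p.coeff i ∈ V) {a b : F} (ha : a ∈ V) (hb : b ∈ V) (hab : a - b ∈ V.nonunits) :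
    p.eval a - p.eval b ∈ V.nonunits := by
  obtain ⟨c, hc⟩ : ∃ c ∈ V, p.eval a - p.eval b = c * (a - b) := by
    have key : ∀ n : ℕ, ∃ c ∈ V, a ^ n - b ^ n = c * (a - b) := by
      intro n
      induction n with
      | zero => exact ⟨0, V.zero_mem, by simp⟩
      | succ n ih =>
        obtain ⟨c, hcV, hc⟩ := ih
        refine ⟨a ^ n + c * b, V.add_mem _ _ (V.pow_mem ha n) (V.mul_mem _ _ hcV hb), ?_⟩
        have : a ^ (n + 1) - b ^ (n + 1) = a ^ n * (a - b) + (a ^ n - b ^ n) * b := by ring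
        rw [this, hc]; ring
    choose c hcV hc using key
    refine ⟨∑ i ∈ p.support, p.coeff i * c i,
      V.toSubring.sum_mem (fun i _ => V.mul_mem _ _ (hp i) (hcV i)), ?_⟩
    rw [Polynomial.eval_eq_sum, Polynomial.eval_eq_sum, Polynomial.sum, Polynomial.sum,
      ← Finset.sum_sub_distrib, Finset.sum_mul]
    refine Finset.sum_congr rfl (fun i _ => ?_)
    rw [← mul_sub, hc i]; ring
  obtain ⟨hcV, hc⟩ := hc
  rw [hc]
  exact nonunits_mul_mem V hcV hab

/-- **Radicial from valuation-level inseparability and normality of the component of level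
`q`.**  If every element of `V` has its `k`-th power congruent modulo `𝔪_V` to an element of
`β F'`, and `B'` is `NormalAlong V' = V.comap β` (unfolded), then every element of `B` has its
`k`-th power congruent modulo `𝔪_V` to an element of `β B'`. -/
theorem rad_of_insep_normal (β : F' →+* F) (B' : Subalgebra R F') (B : Subalgebra R F)
    (V : ValuationSubring F) (V' : ValuationSubring F') (k : ℕ)
    (hBV : ∀ b ∈ B, b ∈ V) (hBV' : ∀ b ∈ B', b ∈ V') (hcomap : V.comap β = V')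
    (hint : ∀ b ∈ B, ∃ p : Polynomial F', p.Monic ∧ (∀ i, p.coeff i ∈ B') ∧
      (p.map β).eval b = 0)
    (insep : ∀ f ∈ V, ∃ g : F', f ^ k - β g ∈ V.nonunits)
    (normal' : ∀ (f : F') (p : Polynomial B'), p.Monic →
      Polynomial.aeval f p ∈ V'.nonunits → ∃ b : B', f - (b : F') ∈ V'.nonunits) :
    ∀ b ∈ B, ∃ b' ∈ B', b ^ k - β b' ∈ V.nonunits := by
  intro b hb
  have hbk : b ^ k ∈ B := B.pow_mem hb k
  obtain ⟨g, hg⟩ := insep b (hBV b hb)
  obtain ⟨p, hp, hc, he⟩ := hint (b ^ k) hbk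
  -- `β g ∈ V`
  have hβg : β g ∈ V := by
    have h1 : β g = b ^ k - (b ^ k - β g) := by ring
    rw [h1]
    exact V.toSubring.sub_mem (hBV _ hbk) (mem_of_mem_nonunits V hg)
  -- `p(g) ∈ 𝔪_{V'}`
  have hcoef : ∀ i, (p.map β).coeff i ∈ V := by
    intro i
    rw [Polynomial.coeff_map]
    have : p.coeff i ∈ V' := hBV' _ (hc i)
    rw [← hcomap, ValuationSubring.mem_comap] at this
    exact this
  have h2 : (p.map β).eval (β g) ∈ V.nonunits := by
    have h3 := eval_sub_eval_mem_nonunits V (p.map β) hcoef (hBV _ hbk) hβg hg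
    rw [he, zero_sub] at h3
    have h4 : -(-(Polynomial.eval (β g) (Polynomial.map β p))) ∈ V.nonunits := by
      rw [ValuationSubring.mem_nonunits_iff] at h3 ⊢
      rwa [Valuation.map_neg]
    simpa using h4
  have h5 : p.eval g ∈ V'.nonunits := by
    rw [← hcomap, mem_nonunits_comap, ← Polynomial.eval₂_hom, ← Polynomial.eval_map]
    exact h2
  -- lift the coefficients to `B'`
  have hl : p ∈ Polynomial.lifts B'.val.toRingHom := by
    rw [Polynomial.lifts_iff_coeff_lifts]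
    intro n
    exact ⟨⟨p.coeff n, hc n⟩, rfl⟩
  obtain ⟨P, hPp, -, hPm⟩ := Polynomial.lifts_and_degree_eq_and_monic hl hp
  have h6 : Polynomial.aeval g P = p.eval g := by
    rw [← hPp, Polynomial.eval_map]
    rfl
  obtain ⟨b', hb'⟩ := normal' g P hPm (h6 ▸ h5)
  refine ⟨b', b'.2, ?_⟩
  have h7 : β (g - (b' : F')) ∈ V.nonunits := by
    rw [← mem_nonunits_comap, hcomap]; exact hb'
  have h8 : b ^ k - β (b' : F') = (b ^ k - β g) + β (g - (b' : F')) := by
    rw [map_sub]; ring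
  rw [h8]
  exact nonunits_add_mem V hg h7

end Adapters

end Fermat.Agent.S36.H153
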