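import Fermat.Agent.S36.H153.Incidence

/-!
# S36 engine, cell INCIDENCE (helper153) — full fibre description `INC-1 .. INC-3`

Continuation of `Incidence.lean` (Mathlib only).  `IncFull` = `IncData` + the two missing
"only" statements + residue degree one (`Radicial`) for the four remaining (component, map) pairs.
All fields are statements about the `(e, f)` table of MOD3 and Kronecker-type congruences on the
charts; NO modular unit, NO Krull principal ideal theorem, NO noetherian hypothesis is used: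
everything follows from going-up + going-down.

Results (numbering of `coord/S36-INCIDENCE-helper578.md`):

* `a_P1_iff`, `a_P2_iff`, `b_P1_iff`, `b_P2_iff` : the image of a prime lies on `C₁'` (`C₂'`) iff the
  prime lies on one of the components over it;
* `inc1_a` : over a point of `C₁' ∖ C₂'` (via `α`) there are exactly two primes, one on `FF` only
  and one on `mid` only, and they are different;
* `inc2_a` : over a point of `C₂' ∖ C₁'` (via `α`) there is exactly one prime, on `VV` only;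
* `inc1_b`, `inc2_b` : the same via `β` (`C₂' ∖ C₁'`: `mid`-only and `VV`-only; `C₁' ∖ C₂'`: `FF`);
* (`INC-3` is `IncData.exists_unique_triple_over_node_a / _b` of `Incidence.lean`);
* adapters `only_of_cover`, `only₂_of_cover` : the "only" fields from the statement
  "every prime containing `w` contains one of the three vertical primes" (`q B ⊇ p_FF p_mid^(q-1)
  p_VV`) and incomparability.
-/

set_option autoImplicit false
set_option linter.style.haveILetI false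
set_option linter.unusedSectionVars false

namespace Fermat.Agent.S36.H153

open Ideal

/-- Full incidence datum. -/
structure IncFull {A B : Type*} [CommRing A] [CommRing B] (a b : A →+* B)
    (P1 P2 : Ideal A) (pFF pmid pVV : Ideal B) : Prop extends IncData a b P1 P2 pFF pmid pVV where
  /-- `FF`, `mid` are the only primes over `C₁'` via `α` -/
  a_only₁ : ∀ p : Ideal B, p.IsPrime → p.comap a = P1 → p = pFF ∨ p = pmid
  /-- `mid`, `VV` are the only primes over `C₂'` via `β` -/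
  b_only₂ : ∀ p : Ideal B, p.IsPrime → p.comap b = P2 → p = pmid ∨ p = pVV
  a_rad_FF : Radicial a pFF
  a_rad_mid : Radicial a pmid
  b_rad_mid : Radicial b pmid
  b_rad_VV : Radicial b pVV

namespace IncFull

variable {A B : Type*} [CommRing A] [CommRing B] [IsDomain A] [IsDomain B]
  [IsIntegrallyClosed A] {a b : A →+* B} {P1 P2 : Ideal A} {pFF pmid pVV : Ideal B}

theorem ff_or_mid_le_of_a (D : IncFull a b P1 P2 pFF pmid pVV) (n : Ideal B) [n.IsPrime]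
    (h : P1 ≤ n.comap a) : pFF ≤ n ∨ pmid ≤ n := by
  haveI := D.primeP1
  obtain ⟨p, hp, hpn, hpc⟩ := exists_prime_le_comap_eq a D.a_inj D.a_int P1 n h
  rcases D.a_only₁ p hp hpc with rfl | rfl
  · exact Or.inl hpn
  · exact Or.inr hpn

theorem mid_or_vv_le_of_b (D : IncFull a b P1 P2 pFF pmid pVV) (n : Ideal B) [n.IsPrime]
    (h : P2 ≤ n.comap b) : pmid ≤ n ∨ pVV ≤ n := by
  haveI := D.primeP2
  obtain ⟨p, hp, hpn, hpc⟩ := exists_prime_le_comap_eq b D.b_inj D.b_int P2 n h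
  rcases D.b_only₂ p hp hpc with rfl | rfl
  · exact Or.inl hpn
  · exact Or.inr hpn

theorem a_P1_iff (D : IncFull a b P1 P2 pFF pmid pVV) (n : Ideal B) [n.IsPrime] :
    P1 ≤ n.comap a ↔ (pFF ≤ n ∨ pmid ≤ n) :=
  ⟨D.ff_or_mid_le_of_a n, fun h => h.elim (fun h => D.a_FF ▸ Ideal.comap_mono h)
    (fun h => D.a_mid ▸ Ideal.comap_mono h)⟩

theorem a_P2_iff (D : IncFull a b P1 P2 pFF pmid pVV) (n : Ideal B) [n.IsPrime] :
    P2 ≤ n.comap a ↔ pVV ≤ n :=
  ⟨D.toIncData.vv_le_of_a n, fun h => D.a_VV ▸ Ideal.comap_mono h⟩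

theorem b_P1_iff (D : IncFull a b P1 P2 pFF pmid pVV) (n : Ideal B) [n.IsPrime] :
    P1 ≤ n.comap b ↔ pFF ≤ n :=
  ⟨D.toIncData.ff_le_of_b n, fun h => D.b_FF ▸ Ideal.comap_mono h⟩

theorem b_P2_iff (D : IncFull a b P1 P2 pFF pmid pVV) (n : Ideal B) [n.IsPrime] :
    P2 ≤ n.comap b ↔ (pmid ≤ n ∨ pVV ≤ n) :=
  ⟨D.mid_or_vv_le_of_b n, fun h => h.elim (fun h => D.b_mid ▸ Ideal.comap_mono h)
    (fun h => D.b_VV ▸ Ideal.comap_mono h)⟩

/-- A prime is a triple point iff its `α`-image is a node iff its `β`-image is a node. -/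
theorem node_a_iff_node_b (D : IncFull a b P1 P2 pFF pmid pVV) (n : Ideal B) [n.IsPrime] :
    (P1 ≤ n.comap a ∧ P2 ≤ n.comap a) ↔ (P1 ≤ n.comap b ∧ P2 ≤ n.comap b) := by
  constructor
  · rintro ⟨h1, h2⟩
    obtain ⟨hFF, -, hVV⟩ := D.toIncData.triple_of_node_a n h1 h2
    exact (D.toIncData.node_of_triple n hFF hVV).2
  · rintro ⟨h1, h2⟩
    obtain ⟨hFF, -, hVV⟩ := D.toIncData.triple_of_node_b n h1 h2
    exact (D.toIncData.node_of_triple n hFF hVV).1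

/-- **INC-1 (via `α`).**  Over a point of `C₁' ∖ C₂'` there are exactly two primes of `B`: one on
`FF` only, one on `mid` only. -/
theorem inc1_a (D : IncFull a b P1 P2 pFF pmid pVV) (N : Ideal A) [N.IsPrime]
    (h1 : P1 ≤ N) (h2 : ¬ P2 ≤ N) :
    ∃ nFF nmid : Ideal B, nFF.IsPrime ∧ nmid.IsPrime ∧ nFF.comap a = N ∧ nmid.comap a = N ∧
      (pFF ≤ nFF ∧ ¬ pmid ≤ nFF ∧ ¬ pVV ≤ nFF) ∧ (¬ pFF ≤ nmid ∧ pmid ≤ nmid ∧ ¬ pVV ≤ nmid) ∧
      nFF ≠ nmid ∧ ∀ n : Ideal B, n.IsPrime → n.comap a = N → n = nFF ∨ n = nmid := by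
  obtain ⟨nFF, hFFp, hFFle, hFFc⟩ :=
    exists_prime_ge_comap_eq a D.a_int pFF N (by rw [D.a_FF]; exact h1)
  obtain ⟨nmid, hmidp, hmidle, hmidc⟩ :=
    exists_prime_ge_comap_eq a D.a_int pmid N (by rw [D.a_mid]; exact h1)
  haveI := hFFp
  haveI := hmidp
  have noVV : ∀ n : Ideal B, n.comap a = N → ¬ pVV ≤ n := fun n hc hVV =>
    h2 (hc ▸ D.a_VV ▸ Ideal.comap_mono hVV)
  have hFF3 : pFF ≤ nFF ∧ ¬ pmid ≤ nFF ∧ ¬ pVV ≤ nFF :=
    ⟨hFFle, fun hm => noVV nFF hFFc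
      (D.toIncData.triple_of_two nFF (Or.inl ⟨hFFle, hm⟩)).2.2, noVV nFF hFFc⟩
  have hmid3 : ¬ pFF ≤ nmid ∧ pmid ≤ nmid ∧ ¬ pVV ≤ nmid :=
    ⟨fun hf => noVV nmid hmidc
      (D.toIncData.triple_of_two nmid (Or.inl ⟨hf, hmidle⟩)).2.2, hmidle, noVV nmid hmidc⟩
  refine ⟨nFF, nmid, hFFp, hmidp, hFFc, hmidc, hFF3, hmid3, ?_, ?_⟩
  · intro heq
    exact hmid3.1 (heq ▸ hFFle)
  · intro n hn hc
    haveI := hn
    rcases D.ff_or_mid_le_of_a n (hc ▸ h1) with h | h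
    · exact Or.inl (D.a_rad_FF.eq_of_comap_eq h hFFle (hc.trans hFFc.symm))
    · exact Or.inr (D.a_rad_mid.eq_of_comap_eq h hmidle (hc.trans hmidc.symm))

/-- **INC-2 (via `α`).**  Over a point of `C₂' ∖ C₁'` there is exactly one prime of `B`; it lies
on `VV` only. -/
theorem inc2_a (D : IncFull a b P1 P2 pFF pmid pVV) (N : Ideal A) [N.IsPrime]
    (h1 : ¬ P1 ≤ N) (h2 : P2 ≤ N) :
    ∃ n : Ideal B, n.IsPrime ∧ n.comap a = N ∧ (¬ pFF ≤ n ∧ ¬ pmid ≤ n ∧ pVV ≤ n) ∧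
      ∀ n' : Ideal B, n'.IsPrime → n'.comap a = N → n' = n := by
  obtain ⟨n, hn, hle, hc⟩ := exists_prime_ge_comap_eq a D.a_int pVV N (by rw [D.a_VV]; exact h2)
  haveI := hn
  refine ⟨n, hn, hc, ⟨fun h => h1 (hc ▸ D.a_FF ▸ Ideal.comap_mono h),
    fun h => h1 (hc ▸ D.a_mid ▸ Ideal.comap_mono h), hle⟩, fun n' hn' hc' => ?_⟩
  haveI := hn'
  exact D.toIncData.unique_over_a n n' hle (hc'.trans hc.symm)

/-- **INC-1 (via `β`).**  Over a point of `C₂' ∖ C₁'` there are exactly two primes of `B`: one on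
`mid` only, one on `VV` only. -/
theorem inc1_b (D : IncFull a b P1 P2 pFF pmid pVV) (N : Ideal A) [N.IsPrime]
    (h1 : ¬ P1 ≤ N) (h2 : P2 ≤ N) :
    ∃ nmid nVV : Ideal B, nmid.IsPrime ∧ nVV.IsPrime ∧ nmid.comap b = N ∧ nVV.comap b = N ∧
      (¬ pFF ≤ nmid ∧ pmid ≤ nmid ∧ ¬ pVV ≤ nmid) ∧ (¬ pFF ≤ nVV ∧ ¬ pmid ≤ nVV ∧ pVV ≤ nVV) ∧
      nmid ≠ nVV ∧ ∀ n : Ideal B, n.IsPrime → n.comap b = N → n = nmid ∨ n = nVV := by
  obtain ⟨nmid, hmidp, hmidle, hmidc⟩ :=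
    exists_prime_ge_comap_eq b D.b_int pmid N (by rw [D.b_mid]; exact h2)
  obtain ⟨nVV, hVVp, hVVle, hVVc⟩ :=
    exists_prime_ge_comap_eq b D.b_int pVV N (by rw [D.b_VV]; exact h2)
  haveI := hmidp
  haveI := hVVp
  have noFF : ∀ n : Ideal B, n.comap b = N → ¬ pFF ≤ n := fun n hc hFF =>
    h1 (hc ▸ D.b_FF ▸ Ideal.comap_mono hFF)
  have hmid3 : ¬ pFF ≤ nmid ∧ pmid ≤ nmid ∧ ¬ pVV ≤ nmid :=
    ⟨noFF nmid hmidc, hmidle, fun hv => noFF nmid hmidc
      (D.toIncData.triple_of_two nmid (Or.inr (Or.inr ⟨hmidle, hv⟩))).1⟩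
  have hVV3 : ¬ pFF ≤ nVV ∧ ¬ pmid ≤ nVV ∧ pVV ≤ nVV :=
    ⟨noFF nVV hVVc, fun hm => noFF nVV hVVc
      (D.toIncData.triple_of_two nVV (Or.inr (Or.inr ⟨hm, hVVle⟩))).1, hVVle⟩
  refine ⟨nmid, nVV, hmidp, hVVp, hmidc, hVVc, hmid3, hVV3, ?_, ?_⟩
  · intro heq
    exact hVV3.2.1 (heq ▸ hmidle)
  · intro n hn hc
    haveI := hn
    rcases D.mid_or_vv_le_of_b n (hc ▸ h2) with h | h
    · exact Or.inl (D.b_rad_mid.eq_of_comap_eq h hmidle (hc.trans hmidc.symm))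
    · exact Or.inr (D.b_rad_VV.eq_of_comap_eq h hVVle (hc.trans hVVc.symm))

/-- **INC-2 (via `β`).**  Over a point of `C₁' ∖ C₂'` there is exactly one prime of `B`; it lies
on `FF` only. -/
theorem inc2_b (D : IncFull a b P1 P2 pFF pmid pVV) (N : Ideal A) [N.IsPrime]
    (h1 : P1 ≤ N) (h2 : ¬ P2 ≤ N) :
    ∃ n : Ideal B, n.IsPrime ∧ n.comap b = N ∧ (pFF ≤ n ∧ ¬ pmid ≤ n ∧ ¬ pVV ≤ n) ∧
      ∀ n' : Ideal B, n'.IsPrime → n'.comap b = N → n' = n := by
  obtain ⟨n, hn, hle, hc⟩ := exists_prime_ge_comap_eq b D.b_int pFF N (by rw [D.b_FF]; exact h1)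
  haveI := hn
  refine ⟨n, hn, hc, ⟨hle, fun h => h2 (hc ▸ D.b_mid ▸ Ideal.comap_mono h),
    fun h => h2 (hc ▸ D.b_VV ▸ Ideal.comap_mono h)⟩, fun n' hn' hc' => ?_⟩
  haveI := hn'
  exact D.toIncData.unique_over_b n n' hle (hc'.trans hc.symm)

end IncFull

/-! ## Adapters: the "only" fields from a cover statement -/

section Cover

variable {A B : Type*} [CommRing A] [CommRing B]

/-- Incomparability for an integral ring homomorphism: two primes `p ≤ p'` with the same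
contraction are equal. -/
theorem eq_of_le_of_comap_eq (a : A →+* B) (ha_int : a.IsIntegral) {p p' : Ideal B}
    [p.IsPrime] (hle : p ≤ p') (hc : p.comap a = p'.comap a) : p = p' := by
  by_contra hne
  have hlt : p < p' := lt_of_le_of_ne hle hne
  letI : Algebra A B := a.toAlgebra
  haveI : Algebra.IsIntegral A B := ⟨ha_int⟩
  have := Ideal.IsIntegral.comap_lt_comap (R := A) hlt
  exact absurd hc (ne_of_lt this)

/-- If every prime of `B` containing `a w` contains one of `p₁ p₂ p₃`, `w ∈ P`, and among the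
three only `p₃` contracts to a prime contained in `P`, then `p₃` is the only prime over `P`. -/
theorem only_of_cover (a : A →+* B) (ha_int : a.IsIntegral) {P : Ideal A} {p₁ p₂ p₃ : Ideal B}
    [p₃.IsPrime] {w : A} (hw : w ∈ P)
    (hcover : ∀ p : Ideal B, p.IsPrime → a w ∈ p → p₁ ≤ p ∨ p₂ ≤ p ∨ p₃ ≤ p)
    (h₁ : ¬ p₁.comap a ≤ P) (h₂ : ¬ p₂.comap a ≤ P) (h₃ : p₃.comap a = P)
    (p : Ideal B) (hp : p.IsPrime) (hc : p.comap a = P) : p = p₃ := by
  have hwp : a w ∈ p := by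
    have : w ∈ p.comap a := hc ▸ hw
    exact this
  rcases hcover p hp hwp with h | h | h
  · exact absurd (hc ▸ Ideal.comap_mono h) h₁
  · exact absurd (hc ▸ Ideal.comap_mono h) h₂
  · exact (eq_of_le_of_comap_eq a ha_int h (h₃.trans hc.symm)).symm

/-- Two-component version: if among the three only `p₁`, `p₂` contract to primes contained in `P`,
every prime over `P` is `p₁` or `p₂`. -/
theorem only₂_of_cover (a : A →+* B) (ha_int : a.IsIntegral) {P : Ideal A} {p₁ p₂ p₃ : Ideal B}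
    [p₁.IsPrime] [p₂.IsPrime] {w : A} (hw : w ∈ P)
    (hcover : ∀ p : Ideal B, p.IsPrime → a w ∈ p → p₁ ≤ p ∨ p₂ ≤ p ∨ p₃ ≤ p)
    (h₁ : p₁.comap a = P) (h₂ : p₂.comap a = P) (h₃ : ¬ p₃.comap a ≤ P)
    (p : Ideal B) (hp : p.IsPrime) (hc : p.comap a = P) : p = p₁ ∨ p = p₂ := by
  have hwp : a w ∈ p := by
    have : w ∈ p.comap a := hc ▸ hw
    exact this
  rcases hcover p hp hwp with h | h | h
  · exact Or.inl (eq_of_le_of_comap_eq a ha_int h (h₁.trans hc.symm)).symm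
  · exact Or.inr (eq_of_le_of_comap_eq a ha_int h (h₂.trans hc.symm)).symm
  · exact absurd (hc ▸ Ideal.comap_mono h) h₃

/-- A prime containing `p₁ ^ e₁ * p₂ ^ e₂ * p₃ ^ e₃` contains one of the three ideals. -/
theorem le_of_mul_pow_le {p₁ p₂ p₃ p : Ideal B} [hp : p.IsPrime] {e₁ e₂ e₃ : ℕ}
    (h : p₁ ^ e₁ * p₂ ^ e₂ * p₃ ^ e₃ ≤ p) : p₁ ≤ p ∨ p₂ ≤ p ∨ p₃ ≤ p := by
  rcases (Ideal.IsPrime.mul_le hp).mp h with h12 | h3
  · rcases (Ideal.IsPrime.mul_le hp).mp h12 with h1 | h2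
    · exact Or.inl (Ideal.IsPrime.le_of_pow_le h1)
    · exact Or.inr (Or.inl (Ideal.IsPrime.le_of_pow_le h2))
  · exact Or.inr (Or.inr (Ideal.IsPrime.le_of_pow_le h3))

/-- The cover statement from an inclusion `p₁ ^ e₁ * p₂ ^ e₂ * p₃ ^ e₃ ≤ (w')`
(e.g. `q B = p_FF ∩ p_mid^(q-1) ∩ p_VV`): every prime containing `w'` contains one of the three
ideals. -/
theorem cover_of_mul_pow_le {p₁ p₂ p₃ : Ideal B} {w' : B} {e₁ e₂ e₃ : ℕ}
    (h : p₁ ^ e₁ * p₂ ^ e₂ * p₃ ^ e₃ ≤ Ideal.span {w'})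
    (p : Ideal B) (hp : p.IsPrime) (hw : w' ∈ p) : p₁ ≤ p ∨ p₂ ≤ p ∨ p₃ ≤ p :=
  haveI := hp
  le_of_mul_pow_le (h.trans ((Ideal.span_singleton_le_iff_mem p).mpr hw))

end Cover

end Fermat.Agent.S36.H153
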