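import Fermat.Agent.A2.Mod.H13.Frame
import Fermat.Agent.S36.H153.CuspSq

/-!
# S36 engine, cell INCIDENCE (helper153) — incomparability of the two components of level `M q`
(hypotheses `inc₁₂`, `inc₂₁` of `ChartInc`), concrete, A2 / MOD vocabulary

`V = V∞` (`IsVinf`), `V₀ = V.comap W` at level `M q`, finite chart `chart R {x'}`, `x' = j j_q`.

* `jE_sub_pow_not_mem` : `j_d - j_d ^ n` (`n ≥ 2`) is a unit of `V∞` (L3, `H816.vinfGauss`);
* `inc₁₂_concrete`     : `j_q - j^q ∈ 𝔪_V`, `∉ 𝔪_{V₀}`;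
* `inc₂₁_concrete`     : `j - j_q^q ∈ 𝔪_{V₀}`, `∉ 𝔪_V`.
-/

set_option autoImplicit false
set_option synthInstance.maxHeartbeats 400000
set_option maxHeartbeats 1600000
set_option linter.unusedSectionVars false
set_option linter.style.haveILetI false

noncomputable section

namespace Fermat.Agent.S36.H153

open ModularCurve HahnSeries Polynomial
open Fermat.Agent.A2.Mod
open Fermat.Agent.S18.H138 (chart)

section Units

variable {P : ValuationSubring Qb} {E : IntermediateField ℚ Qb} {M q : ℕ} [NeZero M] [NeZero q]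
variable (w : RE P E)

/-- `j_d` is transcendental over `E`. -/
theorem transcendental_jE' (N d : ℕ) [NeZero d] (hd : d ∣ N) :
    Transcendental E (jE E N d hd) := by
  intro halg
  have h1 : Transcendental E ((jE E N d hd : FE E N) : LaurentSeries E) := by
    rw [H873.coe_jE]
    exact H31.transcendental_of_order_neg (H31.order_qExpand_jqModC_neg E d)
  apply h1
  obtain ⟨p, hp0, hp⟩ := halg
  refine ⟨p, hp0, ?_⟩
  have h2 := Polynomial.aeval_algHom_apply (FE E N).val (jE E N d hd) p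
  rw [hp, map_zero] at h2
  exact h2

/-- **L3 for `j_d`**: `p(j_d)` is a unit of `V∞` for every `p ∈ R[X]` not divisible by `w`. -/
theorem ev_jE_unit (hS : Setting P E M q w) {N : ℕ} (hN : N ≠ 0)
    {V : ValuationSubring (FE E N)} (hV : IsVinf P E N V) (d : ℕ) [NeZero d] (hd : d ∣ N)
    (p : Polynomial (RE P E)) (hp : ¬ Polynomial.C w ∣ p) :
    ev P E N (jE E N d hd) p ∈ V ∧ (ev P E N (jE E N d hd) p)⁻¹ ∈ V := by
  haveI := hS.dvr
  obtain ⟨g, hg, e⟩ := H13.isPolar_jE (E := E) (N := N) d hd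
  have hd0 : 0 < d := Nat.pos_of_ne_zero (NeZero.ne d)
  exact H816.vinfGauss P E w N hN inferInstance hS.unif V hV (jE E N d hd)
    (Fermat.Agent.A2.H708.castA (RE P E) g) d hd0
    (by rw [e]; exact H553.coeffEmb_castQ (P := P) g)
    (fun n hn => by
      show ((g.coeff n : ℤ) : RE P E) = 0
      rw [hg.1 n hn, Int.cast_zero])
    (by
      have : (Fermat.Agent.A2.H708.castA (RE P E) g).coeff (-(d : ℤ)) = 1 := by
        show ((g.coeff (-(d : ℤ)) : ℤ) : RE P E) = 1
        rw [hg.2, Int.cast_one]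
      rw [this]
      exact isUnit_one)
    p hp

/-- `j_d - j_d ^ n`, `n ≥ 2`, is not in the maximal ideal of `V∞`. -/
theorem jE_sub_pow_not_mem (hS : Setting P E M q w) {N : ℕ} (hN : N ≠ 0)
    {V : ValuationSubring (FE E N)} (hV : IsVinf P E N V) (d : ℕ) [NeZero d] (hd : d ∣ N)
    (n : ℕ) (hn : 2 ≤ n) : jE E N d hd - jE E N d hd ^ n ∉ V.nonunits := by
  set p : Polynomial (RE P E) := Polynomial.X - Polynomial.X ^ n with hp
  have hc1 : p.coeff 1 = 1 := by
    rw [hp, Polynomial.coeff_sub, Polynomial.coeff_X_one, Polynomial.coeff_X_pow]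
    have : (1 : ℕ) ≠ n := by omega
    simp [this]
  have hpw : ¬ Polynomial.C w ∣ p := by
    intro hdvd
    have h1 := (Polynomial.C_dvd_iff_dvd_coeff w p).mp hdvd 1
    rw [hc1] at h1
    exact hS.unif.not_isUnit (isUnit_of_dvd_one h1)
  have hev : ev P E N (jE E N d hd) p = jE E N d hd - jE E N d hd ^ n := by
    haveI := hS.dvr
    rw [H13.ev_eq_aeval (P := P), hp, map_sub, Polynomial.aeval_X, map_pow, Polynomial.aeval_X]
  obtain ⟨-, hinv⟩ := ev_jE_unit w hS hN hV d hd p hpw
  rw [hev] at hinv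
  have hne : jE E N d hd - jE E N d hd ^ n ≠ 0 := by
    intro h0
    apply transcendental_jE' (E := E) N d hd
    refine ⟨Polynomial.X - Polynomial.X ^ n, ?_, ?_⟩
    · intro hzero
      have := congrArg (fun r : Polynomial E => r.coeff 1) hzero
      simp only [Polynomial.coeff_sub, Polynomial.coeff_X_one, Polynomial.coeff_X_pow,
        Polynomial.coeff_zero] at this
      have hn1 : (1 : ℕ) ≠ n := by omega
      simp [hn1] at this
    · rw [map_sub, Polynomial.aeval_X, map_pow, Polynomial.aeval_X]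
      exact h0
  intro hmem
  rw [ValuationSubring.mem_nonunits_iff] at hmem
  have h1 : V.valuation (jE E N d hd - jE E N d hd ^ n)⁻¹ ≤ 1 :=
    (V.valuation_le_one_iff _).mpr hinv
  rw [map_inv₀] at h1
  have h2 : V.valuation (jE E N d hd - jE E N d hd ^ n) ≠ 0 :=
    (V.valuation.ne_zero_iff).mpr hne
  have h3 : 1 ≤ V.valuation (jE E N d hd - jE E N d hd ^ n) :=
    (inv_le_one₀ (zero_lt_iff.mpr h2)).mp h1
  exact absurd hmem (not_lt.mpr h3)

/-- `a ≡ b mod 𝔪_V ⟹ a ^ n ≡ b ^ n mod 𝔪_V`. -/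
theorem pow_sub_pow_mem_nonunits {F : Type*} [Field F] (V : ValuationSubring F) {a b : F}
    (ha : a ∈ V) (hb : b ∈ V) (hab : a - b ∈ V.nonunits) (n : ℕ) :
    a ^ n - b ^ n ∈ V.nonunits := by
  have h := eval_sub_eval_mem_nonunits V (Polynomial.X ^ n : Polynomial F)
    (fun i => by
      rw [Polynomial.coeff_X_pow]
      split_ifs
      · exact V.one_mem
      · exact V.zero_mem) ha hb hab
  simpa using h

end Units

section Inc

variable {P : ValuationSubring Qb} {E : IntermediateField ℚ Qb} {M q : ℕ} [NeZero M] [NeZero q]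
variable (w : RE P E)

theorem j1_mem_chart (hq : q.Prime) :
    j1 E M q ∈ chart (RE P E) ({xE E M q} : Set (FE E (M * q))) := by
  have h := (H873.chartCompat P E M q hq).1
  rw [H372.mem_chart_iff] at h
  exact h

theorem jq1_mem_chart (hq : q.Prime) :
    jq1 E M q ∈ chart (RE P E) ({xE E M q} : Set (FE E (M * q))) := by
  have h := (H873.chartCompat P E M q hq).2.1
  rw [H372.mem_chart_iff] at h
  exact h

/-- Kronecker on `V∞` (finite form): `j_q - j^q ∈ 𝔪_V`. -/
theorem kron_fin₁ (hS : Setting P E M q w) {V : ValuationSubring (FE E (M * q))}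
    (hV : IsVinf P E (M * q) V) : jq1 E M q - j1 E M q ^ q ∈ V.nonunits := by
  have hN := H372.level_ne_zero w hS
  have hk := H372.inW_jE_sub_pow w hS hV 1 (one_dvd M)
  have hcongr : jE E (M * q) (1 * q) (mul_dvd_mul_right (one_dvd M) q) = jq1 E M q :=
    H372.jE_congr (one_mul q) _ _
  rw [hcongr] at hk
  exact mem_nonunits_of_inW w hS hN hV hk

/-- Kronecker on `V∞` at the other end: `j_{Mq} - j_M^q ∈ 𝔪_V`. -/
theorem kron_fin_M (hS : Setting P E M q w) {V : ValuationSubring (FE E (M * q))}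
    (hV : IsVinf P E (M * q) V) :
    jE E (M * q) (M * q) (dvd_refl _) - jE E (M * q) M (dvd_mul_right M q) ^ q ∈ V.nonunits := by
  have hN := H372.level_ne_zero w hS
  exact mem_nonunits_of_inW w hS hN hV (H372.inW_jE_sub_pow w hS hV M (dvd_refl M))

/-- **`inc₁₂`**: `j_q - j^q` lies on `C∞` and not on `C₀`. -/
theorem inc₁₂_concrete (hS : Setting P E M q w) (V : ValuationSubring (FE E (M * q)))
    (W : FE E (M * q) ≃ₐ[E] FE E (M * q)) (hV : IsVinf P E (M * q) V)
    (hW : IsFricke E (M * q) W) :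
    ∃ b' ∈ chart (RE P E) ({xE E M q} : Set (FE E (M * q))),
      b' ∈ V.nonunits ∧ b' ∉ (V.comap (W : FE E (M * q) →+* FE E (M * q))).nonunits := by
  have hN := H372.level_ne_zero w hS
  have hq := hS.q_prime
  refine ⟨jq1 E M q - j1 E M q ^ q,
    Subalgebra.sub_mem _ (jq1_mem_chart hq) (Subalgebra.pow_mem _ (j1_mem_chart hq) q),
    kron_fin₁ w hS hV, ?_⟩
  rw [mem_nonunits_comap]
  intro hmem
  have hWb : (W : FE E (M * q) →+* FE E (M * q)) (jq1 E M q - j1 E M q ^ q) =
      jE E (M * q) M (dvd_mul_right M q) - jE E (M * q) (M * q) (dvd_refl _) ^ q := by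
    show W (jq1 E M q - j1 E M q ^ q) = _
    rw [map_sub, map_pow, H372.fricke_jE_one hW, H372.fricke_jE_q hW]
  rw [hWb] at hmem
  have hk := kron_fin_M w hS hV
  have hjM : jE E (M * q) M (dvd_mul_right M q) ∈ V := H372.jE_mem w hS hN hV M _
  have hjMq : jE E (M * q) (M * q) (dvd_refl _) ∈ V := H372.jE_mem w hS hN hV (M * q) _
  have hpow := pow_sub_pow_mem_nonunits V hjMq (V.pow_mem hjM q) hk q
  have hsum : jE E (M * q) M (dvd_mul_right M q) -
      jE E (M * q) M (dvd_mul_right M q) ^ (q * q) ∈ V.nonunits := by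
    have e : jE E (M * q) M (dvd_mul_right M q) -
        jE E (M * q) M (dvd_mul_right M q) ^ (q * q) =
        (jE E (M * q) M (dvd_mul_right M q) - jE E (M * q) (M * q) (dvd_refl _) ^ q) +
        (jE E (M * q) (M * q) (dvd_refl _) ^ q -
          (jE E (M * q) M (dvd_mul_right M q) ^ q) ^ q) := by
      rw [pow_mul]; ring
    rw [e]
    exact nonunits_add_mem V hmem hpow
  have hqq : 2 ≤ q * q := by
    have := hq.two_le
    nlinarith
  exact jE_sub_pow_not_mem w hS hN hV M (dvd_mul_right M q) (q * q) hqq hsum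

/-- **`inc₂₁`**: `j - j_q^q` lies on `C₀` and not on `C∞`. -/
theorem inc₂₁_concrete (hS : Setting P E M q w) (V : ValuationSubring (FE E (M * q)))
    (W : FE E (M * q) ≃ₐ[E] FE E (M * q)) (hV : IsVinf P E (M * q) V)
    (hW : IsFricke E (M * q) W) :
    ∃ b' ∈ chart (RE P E) ({xE E M q} : Set (FE E (M * q))),
      b' ∈ (V.comap (W : FE E (M * q) →+* FE E (M * q))).nonunits ∧ b' ∉ V.nonunits := by
  have hN := H372.level_ne_zero w hS
  have hq := hS.q_prime
  refine ⟨j1 E M q - jq1 E M q ^ q,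
    Subalgebra.sub_mem _ (j1_mem_chart hq) (Subalgebra.pow_mem _ (jq1_mem_chart hq) q), ?_, ?_⟩
  · rw [mem_nonunits_comap]
    have hWb : (W : FE E (M * q) →+* FE E (M * q)) (j1 E M q - jq1 E M q ^ q) =
        jE E (M * q) (M * q) (dvd_refl _) - jE E (M * q) M (dvd_mul_right M q) ^ q := by
      show W (j1 E M q - jq1 E M q ^ q) = _
      rw [map_sub, map_pow, H372.fricke_jE_one hW, H372.fricke_jE_q hW]
    rw [hWb]
    exact kron_fin_M w hS hV
  · intro hmem
    have hk := kron_fin₁ w hS hV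
    have hj : j1 E M q ∈ V := H372.jE_mem w hS hN hV 1 _
    have hjq : jq1 E M q ∈ V := H372.jE_mem w hS hN hV q _
    have hpow := pow_sub_pow_mem_nonunits V hjq (V.pow_mem hj q) hk q
    have hsum : j1 E M q - j1 E M q ^ (q * q) ∈ V.nonunits := by
      have e : j1 E M q - j1 E M q ^ (q * q) =
          (j1 E M q - jq1 E M q ^ q) + (jq1 E M q ^ q - (j1 E M q ^ q) ^ q) := by
        rw [pow_mul]; ring
      rw [e]
      exact nonunits_add_mem V hmem hpow
    have hqq : 2 ≤ q * q := by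
      have := hq.two_le
      nlinarith
    exact jE_sub_pow_not_mem w hS hN hV 1 (one_dvd _) (q * q) hqq hsum

end Inc

end Fermat.Agent.S36.H153
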