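import Mathlib

/-!
# S36 engine, cell INCIDENCE (helper153) — abstract, Mathlib only

Setting (board `coord/S36.md` §7, norm route of helper336):

* `A` = chart of the level-`qM'` model (normal domain), `B` = chart of the level-`q²M'` model
  (a domain), `a b : A →+* B` the two degeneracy inclusions `α`, `β` (injective, integral);
* `P1 P2` the two vertical primes of `A` (components `C₁'`, `C₂'`),
  `pFF pmid pVV` the three vertical primes of `B`;
* comap pattern (MOD3):  via `a`: `pFF, pmid ↦ P1`, `pVV ↦ P2`;  via `b`: `pFF ↦ P1`,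
  `pmid, pVV ↦ P2`;  `pVV` is the ONLY prime over `P2` via `a`, `pFF` the ONLY prime over `P1`
  via `b`;
* `B / pVV` is radicial over `A` via `a` and `B / pFF` is radicial over `A` via `b`
  (`Radicial`: every element has a power congruent to an element of the image; e.g. residue
  degree `q` purely inseparable and `A / P` normal, or residue degree one).

Results (all for arbitrary PRIME ideals `n` of `B`, in particular closed points):

* `triple_of_two`     : a prime lying on two of the three components lies on all three;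
* `triple_of_node_a/b`: a prime whose `a`-image (`b`-image) lies on both components of level `q`
                        is a triple point;
* `unique_over_a/b`   : a prime over a node of level `q` (via `a`, resp. via `b`) is the unique
                        prime of `B` over that node;
* `node_of_triple`    : the images of a triple point are nodes (trivial direction);
* `single_iff`        : a prime containing one component is a triple point or lies on exactly one
                        component;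
* adapters `Radicial.of_surj`, `Radicial.of_pow`, `uniqueOver_of_cover`.

Proofs: going-up for integral extensions and Mathlib's going-down for integral extensions of
integrally closed domains.
-/

set_option autoImplicit false
set_option linter.style.haveILetI false
set_option linter.unusedSectionVars false

namespace Fermat.Agent.S36.H153

open Ideal

section Basic

variable {A B : Type*} [CommRing A] [CommRing B]

/-- `B / p` is *radicial* over `A` via `a`: every element of `B` has a positive power which is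
congruent modulo `p` to an element of the image of `a`. -/
def Radicial (a : A →+* B) (p : Ideal B) : Prop :=
  ∀ x : B, ∃ k : ℕ, 0 < k ∧ ∃ y : A, x ^ k - a y ∈ p

/-- Residue degree one: `A → B / p` surjective. -/
theorem Radicial.of_surj {a : A →+* B} {p : Ideal B}
    (h : ∀ x : B, ∃ y : A, x - a y ∈ p) : Radicial a p := fun x => by
  obtain ⟨y, hy⟩ := h x
  exact ⟨1, Nat.one_pos, y, by simpa using hy⟩

/-- Purely inseparable residue extension of exponent `q`. -/
theorem Radicial.of_pow {a : A →+* B} {p : Ideal B} (q : ℕ) (hq : 0 < q)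
    (h : ∀ x : B, ∃ y : A, x ^ q - a y ∈ p) : Radicial a p := fun x => by
  obtain ⟨y, hy⟩ := h x
  exact ⟨q, hq, y, hy⟩

/-- On a radicial component, a prime is determined by its contraction (order form). -/
theorem Radicial.le_of_comap_le {a : A →+* B} {p : Ideal B} (hr : Radicial a p)
    {n n' : Ideal B} [n'.IsPrime] (hn : p ≤ n) (hn' : p ≤ n')
    (h : n.comap a ≤ n'.comap a) : n ≤ n' := by
  intro x hx
  obtain ⟨k, _, y, hy⟩ := hr x
  have h1 : a y ∈ n := by
    have h2 : x ^ k - (x ^ k - a y) ∈ n := n.sub_mem (n.pow_mem_of_mem hx k ‹0 < k›) (hn hy)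
    simpa using h2
  have h3 : a y ∈ n' := h (Ideal.mem_comap.mpr h1)
  have h4 : x ^ k ∈ n' := by
    have h5 : (x ^ k - a y) + a y ∈ n' := n'.add_mem (hn' hy) h3
    simpa using h5
  exact Ideal.IsPrime.mem_of_pow_mem ‹n'.IsPrime› k h4

/-- On a radicial component, a prime is determined by its contraction. -/
theorem Radicial.eq_of_comap_eq {a : A →+* B} {p : Ideal B} (hr : Radicial a p)
    {n n' : Ideal B} [n.IsPrime] [n'.IsPrime] (hn : p ≤ n) (hn' : p ≤ n')
    (h : n.comap a = n'.comap a) : n = n' :=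
  le_antisymm (hr.le_of_comap_le hn hn' h.le) (hr.le_of_comap_le hn' hn h.ge)

end Basic

section GoingDown

variable {A B : Type*} [CommRing A] [CommRing B] [IsDomain A] [IsDomain B]
  [IsIntegrallyClosed A]

/-- Going-down for an injective integral ring homomorphism out of a normal domain. -/
theorem exists_prime_le_comap_eq (a : A →+* B) (ha_inj : Function.Injective a)
    (ha_int : a.IsIntegral) (P : Ideal A) [P.IsPrime] (n : Ideal B) [n.IsPrime]
    (h : P ≤ n.comap a) : ∃ p : Ideal B, p.IsPrime ∧ p ≤ n ∧ p.comap a = P := by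
  letI : Algebra A B := a.toAlgebra
  haveI : Algebra.IsIntegral A B := ⟨ha_int⟩
  haveI : FaithfulSMul A B := (faithfulSMul_iff_algebraMap_injective A B).mpr ha_inj
  haveI : n.LiesOver (n.comap a) := ⟨rfl⟩
  haveI : (n.comap a).IsPrime := Ideal.comap_isPrime a n
  obtain ⟨p, hpn, hp, hpP⟩ := Ideal.exists_ideal_le_liesOver_of_le (p := P) (q := n.comap a) n h
  exact ⟨p, hp, hpn, (hpP.over).symm⟩

/-- Going-up (lying over) for an integral ring homomorphism. -/
theorem exists_prime_ge_comap_eq (a : A →+* B) (ha_int : a.IsIntegral)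
    (p : Ideal B) (N : Ideal A) [N.IsPrime] (h : p.comap a ≤ N) :
    ∃ n : Ideal B, n.IsPrime ∧ p ≤ n ∧ n.comap a = N := by
  letI : Algebra A B := a.toAlgebra
  haveI : Algebra.IsIntegral A B := ⟨ha_int⟩
  obtain ⟨Q, hQ, hQp, hQc⟩ := Ideal.exists_ideal_over_prime_of_isIntegral N p h
  exact ⟨Q, hQp, hQ, hQc⟩

end GoingDown

/-- The MOD3 incidence datum: comap pattern of the three vertical primes of level `q²` over the
two vertical primes of level `q`, via the two degeneracy maps. -/
structure IncData {A B : Type*} [CommRing A] [CommRing B] (a b : A →+* B)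
    (P1 P2 : Ideal A) (pFF pmid pVV : Ideal B) : Prop where
  a_inj : Function.Injective a
  b_inj : Function.Injective b
  a_int : a.IsIntegral
  b_int : b.IsIntegral
  primeP1 : P1.IsPrime
  primeP2 : P2.IsPrime
  primeFF : pFF.IsPrime
  primeMid : pmid.IsPrime
  primeVV : pVV.IsPrime
  /-- via `α`: `FF`, `mid` lie over `C₁'`, `VV` lies over `C₂'` -/
  a_FF : pFF.comap a = P1
  a_mid : pmid.comap a = P1
  a_VV : pVV.comap a = P2
  /-- via `β`: `FF` lies over `C₁'`, `mid`, `VV` lie over `C₂'` -/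
  b_FF : pFF.comap b = P1
  b_mid : pmid.comap b = P2
  b_VV : pVV.comap b = P2
  /-- `VV` is the only prime over `C₂'` via `α` -/
  a_only : ∀ p : Ideal B, p.IsPrime → p.comap a = P2 → p = pVV
  /-- `FF` is the only prime over `C₁'` via `β` -/
  b_only : ∀ p : Ideal B, p.IsPrime → p.comap b = P1 → p = pFF
  /-- `VV → C₂'` is radicial via `α` (purely inseparable of degree `q`) -/
  a_rad : Radicial a pVV
  /-- `FF → C₁'` is radicial via `β` (purely inseparable of degree `q`) -/
  b_rad : Radicial b pFF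

namespace IncData

variable {A B : Type*} [CommRing A] [CommRing B] [IsDomain A] [IsDomain B]
  [IsIntegrallyClosed A] {a b : A →+* B} {P1 P2 : Ideal A} {pFF pmid pVV : Ideal B}

/-- A prime of `B` whose `α`-image lies on `C₂'` lies on `VV`. -/
theorem vv_le_of_a (D : IncData a b P1 P2 pFF pmid pVV) (n : Ideal B) [n.IsPrime]
    (h : P2 ≤ n.comap a) : pVV ≤ n := by
  haveI := D.primeP2
  obtain ⟨p, hp, hpn, hpc⟩ := exists_prime_le_comap_eq a D.a_inj D.a_int P2 n h
  rw [← D.a_only p hp hpc]; exact hpn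

/-- A prime of `B` whose `β`-image lies on `C₁'` lies on `FF`. -/
theorem ff_le_of_b (D : IncData a b P1 P2 pFF pmid pVV) (n : Ideal B) [n.IsPrime]
    (h : P1 ≤ n.comap b) : pFF ≤ n := by
  haveI := D.primeP1
  obtain ⟨p, hp, hpn, hpc⟩ := exists_prime_le_comap_eq b D.b_inj D.b_int P1 n h
  rw [← D.b_only p hp hpc]; exact hpn

/-- **Uniqueness over `α`.** Two primes of `B` with the same `α`-image, one of them lying on
`VV`, are equal. -/
theorem unique_over_a (D : IncData a b P1 P2 pFF pmid pVV) (n n' : Ideal B) [n.IsPrime]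
    [n'.IsPrime] (hn : pVV ≤ n) (h : n'.comap a = n.comap a) : n' = n := by
  have h2 : P2 ≤ n'.comap a := by
    rw [h, ← D.a_VV]; exact Ideal.comap_mono hn
  exact D.a_rad.eq_of_comap_eq (D.vv_le_of_a n' h2) hn h

/-- **Uniqueness over `β`.** Two primes of `B` with the same `β`-image, one of them lying on
`FF`, are equal. -/
theorem unique_over_b (D : IncData a b P1 P2 pFF pmid pVV) (n n' : Ideal B) [n.IsPrime]
    [n'.IsPrime] (hn : pFF ≤ n) (h : n'.comap b = n.comap b) : n' = n := by
  have h2 : P1 ≤ n'.comap b := by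
    rw [h, ← D.b_FF]; exact Ideal.comap_mono hn
  exact D.b_rad.eq_of_comap_eq (D.ff_le_of_b n' h2) hn h

/-- A prime on `VV` whose `α`-image lies on `C₁'` (i.e. over a node via `α`) lies on `FF` and on
`mid`. -/
theorem ff_mid_le_of_vv_a (D : IncData a b P1 P2 pFF pmid pVV) (n : Ideal B) [n.IsPrime]
    (hVV : pVV ≤ n) (h1 : P1 ≤ n.comap a) : pFF ≤ n ∧ pmid ≤ n := by
  haveI : (n.comap a).IsPrime := Ideal.comap_isPrime a n
  constructor
  · obtain ⟨n', hn', hle, hc⟩ :=
      exists_prime_ge_comap_eq a D.a_int pFF (n.comap a) (by rw [D.a_FF]; exact h1)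
    haveI := hn'
    rw [← D.unique_over_a n n' hVV hc]; exact hle
  · obtain ⟨n', hn', hle, hc⟩ :=
      exists_prime_ge_comap_eq a D.a_int pmid (n.comap a) (by rw [D.a_mid]; exact h1)
    haveI := hn'
    rw [← D.unique_over_a n n' hVV hc]; exact hle

/-- A prime on `FF` whose `β`-image lies on `C₂'` (i.e. over a node via `β`) lies on `mid` and on
`VV`. -/
theorem mid_vv_le_of_ff_b (D : IncData a b P1 P2 pFF pmid pVV) (n : Ideal B) [n.IsPrime]
    (hFF : pFF ≤ n) (h2 : P2 ≤ n.comap b) : pmid ≤ n ∧ pVV ≤ n := by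
  haveI : (n.comap b).IsPrime := Ideal.comap_isPrime b n
  constructor
  · obtain ⟨n', hn', hle, hc⟩ :=
      exists_prime_ge_comap_eq b D.b_int pmid (n.comap b) (by rw [D.b_mid]; exact h2)
    haveI := hn'
    rw [← D.unique_over_b n n' hFF hc]; exact hle
  · obtain ⟨n', hn', hle, hc⟩ :=
      exists_prime_ge_comap_eq b D.b_int pVV (n.comap b) (by rw [D.b_VV]; exact h2)
    haveI := hn'
    rw [← D.unique_over_b n n' hFF hc]; exact hle

/-- **Triple points via `α`**: a prime of `B` whose `α`-image lies on both components of level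
`q` lies on all three components of level `q²`. -/
theorem triple_of_node_a (D : IncData a b P1 P2 pFF pmid pVV) (n : Ideal B) [n.IsPrime]
    (h1 : P1 ≤ n.comap a) (h2 : P2 ≤ n.comap a) : pFF ≤ n ∧ pmid ≤ n ∧ pVV ≤ n := by
  have hVV := D.vv_le_of_a n h2
  obtain ⟨hFF, hmid⟩ := D.ff_mid_le_of_vv_a n hVV h1
  exact ⟨hFF, hmid, hVV⟩

/-- **Triple points via `β`**: a prime of `B` whose `β`-image lies on both components of level
`q` lies on all three components of level `q²`. -/
theorem triple_of_node_b (D : IncData a b P1 P2 pFF pmid pVV) (n : Ideal B) [n.IsPrime]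
    (h1 : P1 ≤ n.comap b) (h2 : P2 ≤ n.comap b) : pFF ≤ n ∧ pmid ≤ n ∧ pVV ≤ n := by
  have hFF := D.ff_le_of_b n h1
  obtain ⟨hmid, hVV⟩ := D.mid_vv_le_of_ff_b n hFF h2
  exact ⟨hFF, hmid, hVV⟩

/-- The images of a triple point are nodes (both via `α` and via `β`). -/
theorem node_of_triple (D : IncData a b P1 P2 pFF pmid pVV) (n : Ideal B)
    (hFF : pFF ≤ n) (hVV : pVV ≤ n) :
    (P1 ≤ n.comap a ∧ P2 ≤ n.comap a) ∧ (P1 ≤ n.comap b ∧ P2 ≤ n.comap b) :=
  ⟨⟨D.a_FF ▸ Ideal.comap_mono hFF, D.a_VV ▸ Ideal.comap_mono hVV⟩,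
    ⟨D.b_FF ▸ Ideal.comap_mono hFF, D.b_VV ▸ Ideal.comap_mono hVV⟩⟩

/-- **INCIDENCE.** A prime of `B` lying on two of the three components lies on all three. -/
theorem triple_of_two (D : IncData a b P1 P2 pFF pmid pVV) (n : Ideal B) [n.IsPrime]
    (h : (pFF ≤ n ∧ pmid ≤ n) ∨ (pFF ≤ n ∧ pVV ≤ n) ∨ (pmid ≤ n ∧ pVV ≤ n)) :
    pFF ≤ n ∧ pmid ≤ n ∧ pVV ≤ n := by
  rcases h with ⟨hFF, hmid⟩ | ⟨hFF, hVV⟩ | ⟨hmid, hVV⟩
  · -- via `β`: `FF ↦ C₁'`, `mid ↦ C₂'`
    exact D.triple_of_node_b n (D.b_FF ▸ Ideal.comap_mono hFF) (D.b_mid ▸ Ideal.comap_mono hmid)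
  · exact D.triple_of_node_a n (D.a_FF ▸ Ideal.comap_mono hFF) (D.a_VV ▸ Ideal.comap_mono hVV)
  · -- via `α`: `mid ↦ C₁'`, `VV ↦ C₂'`
    exact D.triple_of_node_a n (D.a_mid ▸ Ideal.comap_mono hmid) (D.a_VV ▸ Ideal.comap_mono hVV)

/-- A triple point is the only prime of `B` over its `α`-image, and the only one over its
`β`-image. -/
theorem unique_of_triple (D : IncData a b P1 P2 pFF pmid pVV) (n : Ideal B) [n.IsPrime]
    (hFF : pFF ≤ n) (hVV : pVV ≤ n) (n' : Ideal B) [n'.IsPrime] :
    (n'.comap a = n.comap a → n' = n) ∧ (n'.comap b = n.comap b → n' = n) :=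
  ⟨D.unique_over_a n n' hVV, D.unique_over_b n n' hFF⟩

/-- **Trichotomy-free form used by the label argument**: a prime on some component is either a
triple point, or lies on exactly one component. -/
theorem triple_or_single (D : IncData a b P1 P2 pFF pmid pVV) (n : Ideal B) [n.IsPrime] :
    (pFF ≤ n ∧ pmid ≤ n ∧ pVV ≤ n) ∨
      (pFF ≤ n ∧ ¬ pmid ≤ n ∧ ¬ pVV ≤ n) ∨
      (¬ pFF ≤ n ∧ pmid ≤ n ∧ ¬ pVV ≤ n) ∨
      (¬ pFF ≤ n ∧ ¬ pmid ≤ n ∧ pVV ≤ n) ∨
      (¬ pFF ≤ n ∧ ¬ pmid ≤ n ∧ ¬ pVV ≤ n) := by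
  by_cases hFF : pFF ≤ n <;> by_cases hmid : pmid ≤ n <;> by_cases hVV : pVV ≤ n
  · exact Or.inl ⟨hFF, hmid, hVV⟩
  · exact absurd (D.triple_of_two n (Or.inl ⟨hFF, hmid⟩)).2.2 hVV
  · exact absurd (D.triple_of_two n (Or.inr (Or.inl ⟨hFF, hVV⟩))).2.1 hmid
  · exact Or.inr (Or.inl ⟨hFF, hmid, hVV⟩)
  · exact absurd (D.triple_of_two n (Or.inr (Or.inr ⟨hmid, hVV⟩))).1 hFF
  · exact Or.inr (Or.inr (Or.inl ⟨hFF, hmid, hVV⟩))
  · exact Or.inr (Or.inr (Or.inr (Or.inl ⟨hFF, hmid, hVV⟩)))
  · exact Or.inr (Or.inr (Or.inr (Or.inr ⟨hFF, hmid, hVV⟩)))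

/-- A prime on `FF` only: its `β`-image is not on `C₂'` and its `α`-image is not on `C₂'`
(so at both images the level-`q` model is "smooth": only `C₁'` passes). -/
theorem images_of_ff_only (D : IncData a b P1 P2 pFF pmid pVV) (n : Ideal B) [n.IsPrime]
    (hFF : pFF ≤ n) (hVV : ¬ pVV ≤ n) : ¬ P2 ≤ n.comap a ∧ ¬ P2 ≤ n.comap b :=
  ⟨fun h => hVV (D.vv_le_of_a n h), fun h => hVV (D.mid_vv_le_of_ff_b n hFF h).2⟩

/-- A prime on `VV` only: neither image is on `C₁'`. -/
theorem images_of_vv_only (D : IncData a b P1 P2 pFF pmid pVV) (n : Ideal B) [n.IsPrime]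
    (hVV : pVV ≤ n) (hFF : ¬ pFF ≤ n) : ¬ P1 ≤ n.comap a ∧ ¬ P1 ≤ n.comap b :=
  ⟨fun h => hFF (D.ff_mid_le_of_vv_a n hVV h).1, fun h => hFF (D.ff_le_of_b n h)⟩

/-- A prime on `mid` only: its `α`-image is on `C₁'` only and its `β`-image is on `C₂'` only. -/
theorem images_of_mid_only (D : IncData a b P1 P2 pFF pmid pVV) (n : Ideal B) [n.IsPrime]
    (hmid : pmid ≤ n) (hFF : ¬ pFF ≤ n) (hVV : ¬ pVV ≤ n) :
    (P1 ≤ n.comap a ∧ ¬ P2 ≤ n.comap a) ∧ (¬ P1 ≤ n.comap b ∧ P2 ≤ n.comap b) :=
  ⟨⟨D.a_mid ▸ Ideal.comap_mono hmid, fun h => hVV (D.vv_le_of_a n h)⟩,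
    ⟨fun h => hFF (D.ff_le_of_b n h), D.b_mid ▸ Ideal.comap_mono hmid⟩⟩

/-- Over every node of level `q` (via `α`) there is exactly one prime of `B`, and it is a triple
point. -/
theorem exists_unique_triple_over_node_a (D : IncData a b P1 P2 pFF pmid pVV) (N : Ideal A)
    [N.IsPrime] (h1 : P1 ≤ N) (h2 : P2 ≤ N) :
    ∃ n : Ideal B, n.IsPrime ∧ n.comap a = N ∧ (pFF ≤ n ∧ pmid ≤ n ∧ pVV ≤ n) ∧
      ∀ n' : Ideal B, n'.IsPrime → n'.comap a = N → n' = n := by
  obtain ⟨n, hn, hle, hc⟩ := exists_prime_ge_comap_eq a D.a_int pVV N (by rw [D.a_VV]; exact h2)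
  haveI := hn
  refine ⟨n, hn, hc, D.triple_of_node_a n (hc ▸ h1) (hc ▸ h2), fun n' hn' hc' => ?_⟩
  haveI := hn'
  exact D.unique_over_a n n' hle (hc'.trans hc.symm)

/-- Over every node of level `q` (via `β`) there is exactly one prime of `B`, and it is a triple
point. -/
theorem exists_unique_triple_over_node_b (D : IncData a b P1 P2 pFF pmid pVV) (N : Ideal A)
    [N.IsPrime] (h1 : P1 ≤ N) (h2 : P2 ≤ N) :
    ∃ n : Ideal B, n.IsPrime ∧ n.comap b = N ∧ (pFF ≤ n ∧ pmid ≤ n ∧ pVV ≤ n) ∧
      ∀ n' : Ideal B, n'.IsPrime → n'.comap b = N → n' = n := by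
  obtain ⟨n, hn, hle, hc⟩ := exists_prime_ge_comap_eq b D.b_int pFF N (by rw [D.b_FF]; exact h1)
  haveI := hn
  refine ⟨n, hn, hc, D.triple_of_node_b n (hc ▸ h1) (hc ▸ h2), fun n' hn' hc' => ?_⟩
  haveI := hn'
  exact D.unique_over_b n n' hle (hc'.trans hc.symm)

end IncData

section LocalDenominators

variable {A B : Type*} [CommRing A] [CommRing B]

/-- **Local denominators.**  If `n` is the ONLY prime of `B` over `N = n ∩ A` (`B` integral over
`A`), then `B_N = B_n`: every `s ∉ n` divides the image of some `t ∈ A ∖ N`.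
(Used for norms at triple points: a unit of `B_n` is a unit of the semilocal ring `B ⊗ A_N`, so
its norm is a unit of `A_N`.) -/
theorem exists_mul_eq_of_unique (a : A →+* B) (ha_int : a.IsIntegral) (n : Ideal B) [n.IsPrime]
    (huniq : ∀ n' : Ideal B, n'.IsPrime → n'.comap a = n.comap a → n' = n)
    (s : B) (hs : s ∉ n) : ∃ (s' : B) (t : A), t ∉ n.comap a ∧ s * s' = a t := by
  classical
  by_contra hcon
  push Not at hcon
  haveI hN : (n.comap a).IsPrime := Ideal.comap_isPrime a n
  -- the multiplicative set `a (A ∖ N)`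
  let S : Submonoid B := (n.comap a).primeCompl.map (a : A →* B)
  have hdisj : Disjoint ((Ideal.span {s} : Ideal B) : Set B) (S : Set B) := by
    rw [Set.disjoint_left]
    rintro x hx ⟨t, ht, rfl⟩
    obtain ⟨s', hs'⟩ := Ideal.mem_span_singleton'.mp hx
    exact hcon s' t ht (by rw [mul_comm]; exact hs')
  obtain ⟨p, hp, hsp, hpS⟩ := Ideal.exists_le_prime_disjoint (Ideal.span {s}) S hdisj
  have hpc : p.comap a ≤ n.comap a := by
    intro t ht
    by_contra htn
    exact Set.disjoint_left.mp hpS (show a t ∈ p from ht) ⟨t, htn, rfl⟩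
  letI : Algebra A B := a.toAlgebra
  haveI : Algebra.IsIntegral A B := ⟨ha_int⟩
  obtain ⟨Q, hQ, hQp, hQc⟩ := Ideal.exists_ideal_over_prime_of_isIntegral (n.comap a) p hpc
  have hQn : Q = n := huniq Q hQp hQc
  exact hs (hQn ▸ hQ (hsp (Ideal.subset_span rfl)))

/-- Elementwise consequence: a fraction `x / s`, `s ∉ n`, can be rewritten with a denominator
from `A ∖ N`. -/
theorem exists_denominator_of_unique (a : A →+* B) (ha_int : a.IsIntegral) (n : Ideal B)
    [n.IsPrime] (huniq : ∀ n' : Ideal B, n'.IsPrime → n'.comap a = n.comap a → n' = n)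
    (x s : B) (hs : s ∉ n) : ∃ (x' : B) (t : A), t ∉ n.comap a ∧ x * a t = x' * s := by
  obtain ⟨s', t, ht, hst⟩ := exists_mul_eq_of_unique a ha_int n huniq s hs
  exact ⟨x * s', t, ht, by rw [← hst]; ring⟩

end LocalDenominators

end Fermat.Agent.S36.H153
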